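import Fermat.Agent.MF.Coeff.BaseChange
import Mathlib.LinearAlgebra.Dimension.StrongRankCondition

/-!
# Finiteness descends along base change
-/

set_option autoImplicit false
set_option maxHeartbeats 400000

noncomputable section

namespace Fermat.Agent.MF.Coeff

open ModularCurve IntermediateField

variable {k K : Type*} [Field k] [Field K] {f : k →+* K}

theorem finiteDimensional_of_relfinrank_bc {E F : IntermediateField k (LaurentSeries k)}
    (hEF : E ≤ F) (h : IntermediateField.relfinrank (bc f E) (bc f F) ≠ 0) :
    FiniteDimensional E (extendScalars hEF) := by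
  rw [IntermediateField.relfinrank_eq_finrank_of_le (bc_mono hEF)] at h
  have : FiniteDimensional (bc f E) (extendScalars (bc_mono (f := f) hEF)) :=
    Module.finite_of_finrank_pos (Nat.pos_of_ne_zero h)
  refine Module.rank_lt_aleph0_iff.mp (lt_of_le_of_lt
    (rank_le (n := Module.finrank (bc f E) (extendScalars (bc_mono (f := f) hEF))) fun s hs => ?_)
    (Cardinal.natCast_lt_aleph0))
  have h0 : LinearIndependent E fun i : s => ((i : extendScalars hEF) : LaurentSeries k) :=
    hs.map' (extendScalars hEF).val.toLinearMap (LinearMap.ker_eq_bot.mpr Subtype.val_injective)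
  let w : s → extendScalars (bc_mono (f := f) hEF) := fun i =>
    ⟨coeffMap f ((i : extendScalars hEF) : LaurentSeries k), coeffMap_mem_bc i.1.2⟩
  have hw : LinearIndependent (bc f E) w :=
    LinearIndependent.of_comp (extendScalars (bc_mono (f := f) hEF)).val.toLinearMap
      (linearIndependent_bc (f := f) h0)
  simpa using hw.fintype_card_le_finrank

theorem isAlgebraic_of_finiteDimensional_extendScalars {E F : IntermediateField k (LaurentSeries k)}
    (hEF : E ≤ F) [FiniteDimensional E (extendScalars hEF)] :
    ∀ x ∈ F, IsAlgebraic E x := fun x hx =>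
  (Algebra.IsAlgebraic.isAlgebraic (R := E) (⟨x, hx⟩ : extendScalars hEF)).algebraMap

theorem finiteDimensional_bc {E F : IntermediateField k (LaurentSeries k)}
    (hEF : E ≤ F) [FiniteDimensional E (extendScalars hEF)] :
    FiniteDimensional (bc f E) (extendScalars (bc_mono (f := f) hEF)) := by
  refine Module.finite_of_finrank_pos ?_
  rw [← IntermediateField.relfinrank_eq_finrank_of_le (bc_mono hEF),
    relfinrank_bc hEF (isAlgebraic_of_finiteDimensional_extendScalars hEF),
    IntermediateField.relfinrank_eq_finrank_of_le hEF]
  exact Module.finrank_pos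

end Fermat.Agent.MF.Coeff

end
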