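import Fermat.Prelude.Def_ModularCurve_X0ModL
import Mathlib.RingTheory.IntegralClosure.IsIntegralClosure.Basic

/-!
# Twisting, coefficient subrings and polynomials in `j`

* `twist z` multiplies the `n`-th coefficient by `z ^ n`;
* `coeffSubring R` consists of the series with all coefficients in `R`;
* the `q`-expansion of `P(j)` determines `P` triangularly, so integrality descends to `P`.
-/

set_option autoImplicit false

noncomputable section

namespace Fermat.Agent.MF.Coeff

open HahnSeries ModularCurve Polynomial

section Twist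

variable {K : Type*} [CommRing K]

/-- `∑ a_n q^n ↦ ∑ a_n z^n q^n`. -/
def twist (z : Kˣ) : LaurentSeries K →+* LaurentSeries K where
  toFun x :=
    { coeff := fun n => ((z ^ n : Kˣ) : K) * x.coeff n
      isPWO_support' := x.isPWO_support.mono fun n hn h => hn (by simp [h]) }
  map_one' := by ext n; rcases eq_or_ne n 0 with rfl | h <;> simp [*]
  map_zero' := by ext n; simp
  map_add' x y := by ext n; simp [mul_add]
  map_mul' x y := by
    ext n
    set x' : LaurentSeries K :=
      { coeff := fun n => ((z ^ n : Kˣ) : K) * x.coeff n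
        isPWO_support' := x.isPWO_support.mono fun n hn h => hn (by simp [h]) } with hx'
    set y' : LaurentSeries K :=
      { coeff := fun n => ((z ^ n : Kˣ) : K) * y.coeff n
        isPWO_support' := y.isPWO_support.mono fun n hn h => hn (by simp [h]) } with hy'
    show ((z ^ n : Kˣ) : K) * (x * y).coeff n = (x' * y').coeff n
    have hx : x'.support = x.support := by
      ext m; simp [hx']
    have hy : y'.support = y.support := by
      ext m; simp [hy']
    rw [HahnSeries.coeff_mul, Finset.mul_sum, HahnSeries.coeff_mul]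
    refine Finset.sum_congr (by simp only [hx, hy]) fun ij hij => ?_
    rw [Finset.mem_addAntidiagonal] at hij
    show _ = ((z ^ ij.1 : Kˣ) : K) * x.coeff ij.1 * (((z ^ ij.2 : Kˣ) : K) * y.coeff ij.2)
    rw [← hij.2.2, zpow_add, Units.val_mul]
    ring

@[simp]
theorem twist_coeff (z : Kˣ) (x : LaurentSeries K) (n : ℤ) :
    (twist z x).coeff n = ((z ^ n : Kˣ) : K) * x.coeff n := rfl

@[simp]
theorem twist_one (x : LaurentSeries K) : twist 1 x = x := by ext n; simp

theorem twist_twist (z w : Kˣ) (x : LaurentSeries K) : twist z (twist w x) = twist (z * w) x := by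
  ext n; simp [mul_zpow, mul_assoc]

/-- `twist z` fixes series in `q ^ d` when `z ^ d = 1`. -/
theorem twist_qExpand {z : Kˣ} {d : ℕ} [NeZero d] (hz : z ^ d = 1) (x : LaurentSeries K) :
    twist z (qExpand K d x) = qExpand K d x := by
  ext n
  by_cases h : (d : ℤ) ∣ n
  · obtain ⟨m, rfl⟩ := h
    simp [zpow_mul, hz]
  · simp [qExpand_coeff_of_not_dvd d x h]

theorem twist_algebraMap {L : Type*} [Field L] (z : Lˣ) (c : L) :
    twist z (algebraMap L (LaurentSeries L) c) = algebraMap L (LaurentSeries L) c := by
  rw [algebraMap_laurentSeries_eq_single]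
  ext n
  rcases eq_or_ne n 0 with rfl | h <;> simp [*]

theorem coeffMap_twist {S : Type*} [CommRing S] (f : K →+* S) (z : Kˣ) (x : LaurentSeries K) :
    coeffMap f (twist z x) = twist (Units.map f.toMonoidHom z) (coeffMap f x) := by
  ext n
  rw [coeffMap_coeff, twist_coeff, twist_coeff, coeffMap_coeff, map_mul, ← map_zpow]
  rfl

end Twist

section CoeffSubring

variable {K : Type*} [CommRing K] (R : Subring K)

/-- The series all of whose coefficients lie in `R`. -/
def coeffSubring : Subring (LaurentSeries K) where
  carrier := {x | ∀ n, x.coeff n ∈ R}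
  one_mem' n := by rw [HahnSeries.coeff_one]; split <;> first | exact R.one_mem | exact R.zero_mem
  zero_mem' n := by simp
  add_mem' hx hy n := by rw [HahnSeries.coeff_add]; exact R.add_mem (hx n) (hy n)
  neg_mem' hx n := by rw [HahnSeries.coeff_neg]; exact R.neg_mem (hx n)
  mul_mem' hx hy n := by
    rw [HahnSeries.coeff_mul]
    exact R.sum_mem fun ij _ => R.mul_mem (hx _) (hy _)

variable {R}

theorem mem_coeffSubring_iff {x : LaurentSeries K} : x ∈ coeffSubring R ↔ ∀ n, x.coeff n ∈ R :=
  Iff.rfl

theorem qExpand_mem_coeffSubring_iff (d : ℕ) [NeZero d] {x : LaurentSeries K} :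
    qExpand K d x ∈ coeffSubring R ↔ x ∈ coeffSubring R := by
  refine ⟨fun h n => by simpa using h ((d : ℤ) * n), fun h n => ?_⟩
  by_cases hn : (d : ℤ) ∣ n
  · obtain ⟨m, rfl⟩ := hn; simpa using h m
  · rw [qExpand_coeff_of_not_dvd d x hn]; exact R.zero_mem

theorem jqModC_mem_coeffSubring : jqModC K ∈ coeffSubring R := fun n => by
  rw [coeff_jqModC_eq_intCast]
  exact intCast_mem R _

theorem twist_mem_coeffSubring {z : Kˣ} (hz : (z : K) ∈ R) (hz' : ((z⁻¹ : Kˣ) : K) ∈ R)
    {x : LaurentSeries K} (hx : x ∈ coeffSubring R) : twist z x ∈ coeffSubring R := fun n => by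
  rw [twist_coeff]
  refine R.mul_mem ?_ (hx n)
  obtain ⟨m, rfl | rfl⟩ := Int.eq_nat_or_neg n
  · rw [zpow_natCast, Units.val_pow_eq_pow_val]; exact pow_mem hz m
  · rw [zpow_neg, zpow_natCast, ← inv_pow, Units.val_pow_eq_pow_val]; exact pow_mem hz' m

theorem coeff_prod_X_sub_C_mem {A ι : Type*} [CommRing A] {S : Subring A} (s : Finset ι)
    (r : ι → A) (hr : ∀ i ∈ s, r i ∈ S) (n : ℕ) :
    (∏ i ∈ s, (Polynomial.X - Polynomial.C (r i))).coeff n ∈ S := by
  classical
  induction s using Finset.induction_on generalizing n with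
  | empty =>
      rw [Finset.prod_empty, Polynomial.coeff_one]
      split <;> first | exact S.one_mem | exact S.zero_mem
  | insert i t hi ih =>
      have ht := ih fun j hj => hr j (Finset.mem_insert_of_mem hj)
      rw [Finset.prod_insert hi, sub_mul, Polynomial.coeff_sub, Polynomial.coeff_C_mul]
      refine S.sub_mem ?_ (S.mul_mem (hr i (Finset.mem_insert_self i t)) (ht n))
      rcases n with _ | n
      · rw [Polynomial.coeff_X_mul_zero]; exact S.zero_mem
      · rw [Polynomial.coeff_X_mul]; exact ht n

end CoeffSubring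

section PolyJ

variable {K : Type*} [CommRing K]

/-- The top coefficient of `P(j)`. -/
theorem coeff_eval₂_jqModC_neg_natDegree {A : Type*} [CommRing A] (f : A →+* K) (P : A[X]) :
    ((P.map f).eval₂ (HahnSeries.C) (jqModC K)).coeff (-((P.natDegree : ℕ) : ℤ)) =
      f P.leadingCoeff := by
  rw [Polynomial.eval₂_map, Polynomial.eval₂_eq_sum_range, HahnSeries.coeff_sum,
    Finset.sum_eq_single P.natDegree]
  · rw [RingHom.comp_apply, HahnSeries.C_mul_eq_smul, HahnSeries.coeff_smul,
      coeff_jqModC_pow_self, smul_eq_mul, mul_one]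
    rfl
  · intro i hi hne
    rw [Finset.mem_range] at hi
    rw [RingHom.comp_apply, HahnSeries.C_mul_eq_smul, HahnSeries.coeff_smul,
      coeff_jqModC_pow_of_lt K (by omega), smul_zero]
  · simp

/-- If `P(j)` has coefficients in `R`, so does `P`. -/
theorem coeff_mem_of_eval_jqModC_mem {R : Subring K} (P : K[X])
    (h : P.eval₂ HahnSeries.C (jqModC K) ∈ coeffSubring R) (i : ℕ) : P.coeff i ∈ R := by
  suffices H : ∀ (d : ℕ) (P : K[X]), P.natDegree < d →
      P.eval₂ HahnSeries.C (jqModC K) ∈ coeffSubring R → ∀ i, P.coeff i ∈ R from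
    H _ P (Nat.lt_succ_self _) h i
  intro d
  induction d with
  | zero => intro P hP; omega
  | succ d ih =>
      intro P hP hmem i
      have hlead : P.leadingCoeff ∈ R := by
        have := coeff_eval₂_jqModC_neg_natDegree (RingHom.id K) P
        rw [Polynomial.map_id, RingHom.id_apply] at this
        rw [← this]; exact hmem _
      rcases Nat.eq_zero_or_pos P.natDegree with h0 | h0
      · rcases eq_or_ne i 0 with rfl | hi
        · rwa [Polynomial.leadingCoeff, h0] at hlead
        · rw [Polynomial.coeff_eq_zero_of_natDegree_lt (by omega)]; exact R.zero_mem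
      have hsub : (P.eraseLead).eval₂ HahnSeries.C (jqModC K) ∈ coeffSubring R := by
        rw [← Polynomial.self_sub_C_mul_X_pow, Polynomial.eval₂_sub, Polynomial.eval₂_mul,
          Polynomial.eval₂_C, Polynomial.eval₂_X_pow]
        refine sub_mem hmem (mul_mem (fun n => ?_) (pow_mem jqModC_mem_coeffSubring _))
        rw [HahnSeries.C_apply, HahnSeries.coeff_single]
        split <;> [exact hlead; exact R.zero_mem]
      have := ih P.eraseLead (by have := P.eraseLead_natDegree_le; omega) hsub i
      rcases eq_or_ne i P.natDegree with rfl | hi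
      · exact hlead
      · rwa [Polynomial.eraseLead_coeff_of_ne i hi] at this

end PolyJ

section Transcendence

variable (K : Type*) [Field K]

theorem eval₂_jqModC_eq_zero_iff (P : K[X]) : P.eval₂ HahnSeries.C (jqModC K) = 0 ↔ P = 0 := by
  refine ⟨fun h => ?_, fun h => by simp [h]⟩
  have := coeff_eval₂_jqModC_neg_natDegree (RingHom.id K) P
  rw [Polynomial.map_id, h] at this
  simpa using this.symm

theorem algebraMap_laurentSeries_eq_C :
    (algebraMap K (LaurentSeries K)) = (HahnSeries.C : K →+* LaurentSeries K) :=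
  RingHom.ext fun c => by rw [algebraMap_laurentSeries_eq_single]; rfl

theorem transcendental_jqModC : Transcendental K (jqModC K) := by
  rintro ⟨P, hP0, hP⟩
  refine hP0 ((eval₂_jqModC_eq_zero_iff K P).mp ?_)
  rwa [Polynomial.aeval_def, algebraMap_laurentSeries_eq_C] at hP

theorem transcendental_jq : Transcendental ℚ jq := by
  rw [← jqModC_rat]; exact transcendental_jqModC ℚ

end Transcendence

end Fermat.Agent.MF.Coeff

end
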