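import Fermat.Agent.MF.Field
import Fermat.Agent.MF.Coeff.FiniteDescent
import Fermat.Agent.MF.Coeff.Series
import Fermat.Agent.FF.Basic

/-!
# `K(FQ)` over any field `K` of characteristic zero

Degree `ψ(N)` over `K(j)`, generation by `j, j_N`, and the function-field structure, descended
from `ℂ`.
-/

set_option autoImplicit false
set_option maxHeartbeats 400000

noncomputable section

namespace Fermat.Agent.MF.Coeff

open ModularCurve IntermediateField Fermat.Agent

theorem adjoin_jq_le_full (N : ℕ) [NeZero N] : ℚ⟮jq⟯ ≤ modularFunctionFieldFull N :=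
  (adjoin_jq_le N).trans (modularFunctionField_le_full N)

theorem bc_adjoin_jq (K : Type*) [Field K] [Algebra ℚ K] :
    bc (algebraMap ℚ K) ℚ⟮jq⟯ = K⟮jqModC K⟯ := by
  rw [bc_adjoin_simple, show coeffMap (algebraMap ℚ K) jq = jqModC K from coeffMap_jqModC _]

theorem laurentBaseChange_adjoin_jq (K : Type*) [Field K] [Algebra ℚ K] :
    laurentBaseChange K ℚ⟮jq⟯ = K⟮jqModC K⟯ :=
  bc_adjoin_jq K

theorem coeffEmb_jq_eq (K : Type*) [Field K] [Algebra ℚ K] : coeffEmb K jq = jqModC K :=
  coeffMap_jqModC _

theorem relfinrank_bc_complex (N : ℕ) [NeZero N] :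
    IntermediateField.relfinrank (bc (algebraMap ℚ ℂ) ℚ⟮jq⟯)
      (bc (algebraMap ℚ ℂ) (modularFunctionFieldFull N)) = dedekindPsi N := by
  rw [bc_adjoin_jq, show bc (algebraMap ℚ ℂ) (modularFunctionFieldFull N) = MFField N from
    (MFField_eq_laurentBaseChange N).symm,
    IntermediateField.relfinrank_eq_finrank_of_le (adjoin_jC_le_MFField N)]
  exact finrank_mfExtension N

theorem dedekindPsi_pos (N : ℕ) [NeZero N] : 0 < dedekindPsi N := by
  rw [← finrank_mfExtension N]
  haveI := finiteDimensional_mfExtension N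
  exact Module.finrank_pos

theorem finiteDimensional_full (N : ℕ) [NeZero N] :
    FiniteDimensional ℚ⟮jq⟯ (extendScalars (adjoin_jq_le_full N)) :=
  finiteDimensional_of_relfinrank_bc (f := algebraMap ℚ ℂ) _
    (by rw [relfinrank_bc_complex]; exact (dedekindPsi_pos N).ne')

theorem isAlgebraic_full (N : ℕ) [NeZero N] :
    ∀ x ∈ modularFunctionFieldFull N, IsAlgebraic ℚ⟮jq⟯ x :=
  haveI := finiteDimensional_full N
  isAlgebraic_of_finiteDimensional_extendScalars _

/-- `[ℚ(j_d : d ∣ N) : ℚ(j)] = ψ(N)`. -/
theorem relfinrank_full (N : ℕ) [NeZero N] :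
    IntermediateField.relfinrank ℚ⟮jq⟯ (modularFunctionFieldFull N) = dedekindPsi N := by
  rw [← relfinrank_bc (f := algebraMap ℚ ℂ) (adjoin_jq_le_full N) (isAlgebraic_full N)]
  exact relfinrank_bc_complex N

variable (K : Type*) [Field K] [Algebra ℚ K]

/-- `[K(FQ) : K(j)] = ψ(N)` for every field `K` of characteristic zero. -/
theorem relfinrank_laurentBaseChange_full (N : ℕ) [NeZero N] :
    IntermediateField.relfinrank K⟮jqModC K⟯
      (laurentBaseChange K (modularFunctionFieldFull N)) = dedekindPsi N := by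
  rw [← bc_adjoin_jq, laurentBaseChange_eq_bc,
    relfinrank_bc (adjoin_jq_le_full N) (isAlgebraic_full N), relfinrank_full]

/-- The same with `j` written as `coeffEmb K jq`. -/
theorem relfinrank_laurentBaseChange_full' (N : ℕ) [NeZero N] :
    IntermediateField.relfinrank (adjoin K {coeffEmb K jq})
      (laurentBaseChange K (modularFunctionFieldFull N)) = dedekindPsi N := by
  rw [coeffEmb_jq_eq]; exact relfinrank_laurentBaseChange_full K N

theorem adjoin_jqModC_le (N : ℕ) [NeZero N] :
    K⟮jqModC K⟯ ≤ laurentBaseChange K (modularFunctionFieldFull N) :=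
  (laurentBaseChange_adjoin_jq K).ge.trans (bc_mono (adjoin_jq_le_full N))

theorem finiteDimensional_laurentBaseChange_full (N : ℕ) [NeZero N] :
    FiniteDimensional K⟮jqModC K⟯ (extendScalars (adjoin_jqModC_le K N)) := by
  refine Module.finite_of_finrank_pos ?_
  rw [← IntermediateField.relfinrank_eq_finrank_of_le (adjoin_jqModC_le K N),
    relfinrank_laurentBaseChange_full]
  exact dedekindPsi_pos N

theorem coeffEmb_qExpand (d : ℕ) [NeZero d] :
    coeffEmb K (qExpand ℚ d jq) = jqNModC K d :=
  coeffMap_jqNModC _ d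

/-- `K(FQ)` is the field generated by all `j_d`. -/
theorem laurentBaseChange_full_eq_fullC (N : ℕ) [NeZero N] :
    laurentBaseChange K (modularFunctionFieldFull N) = modularFunctionFieldFullC K N := by
  rw [laurentBaseChange_eq_bc, modularFunctionFieldFull, bc_adjoin, modularFunctionFieldFullC]
  congr 1
  ext x
  constructor
  · rintro ⟨_, ⟨d, hd0, hd, rfl⟩, rfl⟩
    exact ⟨d, hd0, hd, coeffMap_jqNModC _ d⟩
  · rintro ⟨d, hd0, hd, rfl⟩
    exact ⟨_, ⟨d, hd0, hd, rfl⟩, coeffMap_jqNModC _ d⟩

theorem modularFunctionFieldFull_eq (N : ℕ) [NeZero N] :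
    modularFunctionFieldFull N = modularFunctionField N := by
  rw [← bc_inj (f := algebraMap ℚ ℂ)]
  have h : bc (algebraMap ℚ ℂ) (modularFunctionField N) = modularFunctionFieldC ℂ N := by
    rw [modularFunctionField, bc_adjoin_pair, modularFunctionFieldC,
      show coeffMap (algebraMap ℚ ℂ) jq = jqModC ℂ from coeffMap_jqModC _,
      show coeffMap (algebraMap ℚ ℂ) (qExpand ℚ N jq) = jqNModC ℂ N from coeffMap_jqNModC _ N]
  rw [h, ← MFField_eq_modularFunctionFieldC, MFField_eq_laurentBaseChange]
  rfl

theorem functionFieldGeneration (N : ℕ) [NeZero N] : FunctionFieldGeneration N := by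
  intro d hd hne
  have h := jqd_mem_full N hd
  rwa [modularFunctionFieldFull_eq, modularFunctionField] at h

/-- `K(FQ) = K(j, j_N)`. -/
theorem laurentBaseChange_full_eq (N : ℕ) [NeZero N] :
    laurentBaseChange K (modularFunctionFieldFull N) = modularFunctionFieldC K N := by
  rw [modularFunctionFieldFull_eq, laurentBaseChange_eq_bc, modularFunctionField, bc_adjoin_pair,
    modularFunctionFieldC,
    show coeffMap (algebraMap ℚ K) jq = jqModC K from coeffMap_jqModC _,
    show coeffMap (algebraMap ℚ K) (qExpand ℚ N jq) = jqNModC K N from coeffMap_jqNModC _ N]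

/-- `j` as an element of `K(FQ)`. -/
def jElem (N : ℕ) [NeZero N] : laurentBaseChange K (modularFunctionFieldFull N) :=
  ⟨jqModC K, adjoin_jqModC_le K N (mem_adjoin_simple_self K _)⟩

@[simp]
theorem coe_jElem (N : ℕ) [NeZero N] : (jElem K N : LaurentSeries K) = jqModC K := rfl

theorem transcendental_jElem (N : ℕ) [NeZero N] : Transcendental K (jElem K N) := fun h =>
  transcendental_jqModC K (h.algHom (laurentBaseChange K (modularFunctionFieldFull N)).val)

theorem map_adjoin_jElem (N : ℕ) [NeZero N] :
    K⟮jElem K N⟯.map (laurentBaseChange K (modularFunctionFieldFull N)).val = K⟮jqModC K⟯ := by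
  rw [adjoin_map, Set.image_singleton]
  rfl

/-- `[K(FQ) : K(j)] = ψ(N)`, inside the function field. -/
theorem finrank_adjoin_jElem (N : ℕ) [NeZero N] :
    Module.finrank K⟮jElem K N⟯ (laurentBaseChange K (modularFunctionFieldFull N)) =
      dedekindPsi N := by
  rw [← IntermediateField.relfinrank_top_right, ← IntermediateField.relfinrank_map_map _ _
    (laurentBaseChange K (modularFunctionFieldFull N)).val, map_adjoin_jElem,
    ← AlgHom.fieldRange_eq_map, fieldRange_val, relfinrank_laurentBaseChange_full]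

theorem finiteDimensional_adjoin_jElem (N : ℕ) [NeZero N] :
    FiniteDimensional K⟮jElem K N⟯ (laurentBaseChange K (modularFunctionFieldFull N)) :=
  Module.finite_of_finrank_pos (by rw [finrank_adjoin_jElem]; exact dedekindPsi_pos N)

theorem isFunctionField_laurentBaseChange (N : ℕ) [NeZero N] :
    FF.IsFunctionField K (laurentBaseChange K (modularFunctionFieldFull N)) :=
  ⟨⟨jElem K N, transcendental_jElem K N, finiteDimensional_adjoin_jElem K N⟩⟩

end Fermat.Agent.MF.Coeff

end
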