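import Fermat.Agent.MF.Coeff.LinearDisjoint
import Mathlib.FieldTheory.IntermediateField.Adjoin.Algebra
import Mathlib.FieldTheory.Relrank
import Mathlib.RingTheory.Algebraic.Integral

/-!
# Base change of fields of Laurent series along a homomorphism of constants

`bc f F = K(f F) ⊆ K((q))`.  We prove descent, preservation of degrees, functoriality, and that
`laurentBaseChange` is an instance.
-/

set_option autoImplicit false

noncomputable section

namespace Fermat.Agent.MF.Coeff

open HahnSeries ModularCurve IntermediateField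

variable {k K : Type*} [Field k] [Field K] (f : k →+* K)

/-- The base change of an intermediate field of `k((q))/k`. -/
def bc (F : IntermediateField k (LaurentSeries k)) : IntermediateField K (LaurentSeries K) :=
  adjoin K (coeffMap f '' (F : Set (LaurentSeries k)))

theorem laurentBaseChange_eq_bc (L : Type*) [Field L] [Algebra ℚ L]
    (F : IntermediateField ℚ (LaurentSeries ℚ)) :
    laurentBaseChange L F = bc (algebraMap ℚ L) F := rfl

variable {f}

theorem coeffMap_mem_bc {F : IntermediateField k (LaurentSeries k)} {x : LaurentSeries k}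
    (hx : x ∈ F) : coeffMap f x ∈ bc f F :=
  subset_adjoin K _ ⟨x, hx, rfl⟩

theorem coeffMap_algebraMap' (g : k →+* K) (c : k) :
    coeffMap g (algebraMap k (LaurentSeries k) c) = algebraMap K (LaurentSeries K) (g c) := by
  rw [algebraMap_laurentSeries_eq_single, algebraMap_laurentSeries_eq_single, coeffMap_single]

theorem bc_mono {F G : IntermediateField k (LaurentSeries k)} (h : F ≤ G) : bc f F ≤ bc f G :=
  adjoin.mono K _ _ (Set.image_mono h)

theorem coeffMap_mem_adjoin_image {S : Set (LaurentSeries k)} {x : LaurentSeries k}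
    (hx : x ∈ adjoin k S) : coeffMap f x ∈ adjoin K (coeffMap f '' S) := by
  induction hx using adjoin_induction with
  | mem y hy => exact subset_adjoin K _ ⟨y, hy, rfl⟩
  | algebraMap c =>
      rw [coeffMap_algebraMap']
      exact IntermediateField.algebraMap_mem _ _
  | add y z _ _ hy hz => rw [map_add]; exact add_mem hy hz
  | inv y _ hy => rw [map_inv₀]; exact inv_mem hy
  | mul y z _ _ hy hz => rw [map_mul]; exact mul_mem hy hz

theorem bc_adjoin (S : Set (LaurentSeries k)) :
    bc f (adjoin k S) = adjoin K (coeffMap f '' S) := by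
  refine le_antisymm ?_ (adjoin.mono K _ _ (Set.image_mono (subset_adjoin k S)))
  rw [bc, adjoin_le_iff]
  rintro _ ⟨x, hx, rfl⟩
  exact coeffMap_mem_adjoin_image hx

theorem bc_adjoin_simple (x : LaurentSeries k) : bc f k⟮x⟯ = K⟮coeffMap f x⟯ := by
  rw [bc_adjoin, Set.image_singleton]

theorem bc_adjoin_pair (x y : LaurentSeries k) :
    bc f (adjoin k {x, y}) = adjoin K {coeffMap f x, coeffMap f y} := by
  rw [bc_adjoin, Set.image_pair]

variable {K' : Type*} [Field K'] (g : K →+* K')

theorem bc_bc (F : IntermediateField k (LaurentSeries k)) :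
    bc g (bc f F) = bc (g.comp f) F := by
  rw [bc, bc, ← bc, bc_adjoin, bc, Set.image_image]
  exact congrArg _ (Set.image_congr fun x _ => coeffMap_coeffMap g f x)

theorem coeffMap_mem_bc_comp {F : IntermediateField k (LaurentSeries k)} {x : LaurentSeries K}
    (hx : x ∈ bc f F) : coeffMap g x ∈ bc (g.comp f) F := by
  rw [← bc_bc]; exact coeffMap_mem_bc hx

/-- The homomorphism of base changed fields induced by a map of constants. -/
def bcMap (F : IntermediateField k (LaurentSeries k)) : bc f F →+* bc (g.comp f) F :=
  ((coeffMap g).comp (bc f F).val.toRingHom).codRestrict _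
    fun x => coeffMap_mem_bc_comp g x.2

@[simp]
theorem coe_bcMap_apply (F : IntermediateField k (LaurentSeries k)) (x : bc f F) :
    (bcMap g F x : LaurentSeries K') = coeffMap g x := rfl

theorem bcMap_injective (F : IntermediateField k (LaurentSeries k)) :
    Function.Injective (bcMap (f := f) g F) :=
  (bcMap (f := f) g F).injective

variable (f)

/-- Elements of `Algebra.adjoin K (f F)` are `K`-linear combinations of elements of `f F`. -/
theorem mem_closure_of_mem_algAdjoin {F : IntermediateField k (LaurentSeries k)}
    {y : LaurentSeries K} (hy : y ∈ Algebra.adjoin K (coeffMap f '' (F : Set (LaurentSeries k)))) :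
    y ∈ AddSubmonoid.closure
      {z | ∃ c : K, ∃ x ∈ F, algebraMap K (LaurentSeries K) c * coeffMap f x = z} := by
  induction hy using Algebra.adjoin_induction with
  | mem z hz =>
      obtain ⟨x, hx, rfl⟩ := hz
      exact AddSubmonoid.subset_closure ⟨1, x, hx, by rw [map_one, one_mul]⟩
  | algebraMap c =>
      exact AddSubmonoid.subset_closure ⟨c, 1, one_mem F, by rw [map_one, mul_one]⟩
  | add a b _ _ ha hb => exact add_mem ha hb
  | mul a b ha' hb' ha hb =>
      clear ha' hb'
      induction ha using AddSubmonoid.closure_induction with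
      | mem a ha =>
          induction hb using AddSubmonoid.closure_induction with
          | mem b hb =>
              obtain ⟨c, x, hx, rfl⟩ := ha
              obtain ⟨d, y, hy, rfl⟩ := hb
              exact AddSubmonoid.subset_closure
                ⟨c * d, x * y, mul_mem hx hy, by rw [map_mul, map_mul]; ring⟩
          | zero => rw [mul_zero]; exact zero_mem _
          | add b b' _ _ hb hb' => rw [mul_add]; exact add_mem hb hb'
      | zero => rw [zero_mul]; exact zero_mem _
      | add a a' _ _ ha ha' => rw [add_mul]; exact add_mem ha ha'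

theorem lift_mem_of_mem_algAdjoin (φ : Functional f) {F : IntermediateField k (LaurentSeries k)}
    {y : LaurentSeries K} (hy : y ∈ Algebra.adjoin K (coeffMap f '' (F : Set (LaurentSeries k)))) :
    φ.lift y ∈ F := by
  have h := mem_closure_of_mem_algAdjoin f hy
  clear hy
  induction h using AddSubmonoid.closure_induction with
  | mem z hz =>
      obtain ⟨c, x, hx, rfl⟩ := hz
      rw [φ.lift_algebraMap_mul]
      exact mul_mem (IntermediateField.algebraMap_mem F _) hx
  | zero => rw [map_zero]; exact zero_mem F
  | add a b _ _ ha hb => rw [map_add]; exact add_mem ha hb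

theorem exists_mul_eq_of_mem_bc {F : IntermediateField k (LaurentSeries k)} {x : LaurentSeries K}
    (hx : x ∈ bc f F) :
    ∃ y ∈ Algebra.adjoin K (coeffMap f '' (F : Set (LaurentSeries k))),
      ∃ z ∈ Algebra.adjoin K (coeffMap f '' (F : Set (LaurentSeries k))), z ≠ 0 ∧ x * z = y := by
  rw [bc, mem_adjoin_iff_div] at hx
  obtain ⟨r, hr, s, hs, rfl⟩ := hx
  rcases eq_or_ne s 0 with rfl | hs0
  · exact ⟨0, zero_mem _, 1, one_mem _, one_ne_zero, by simp⟩
  · exact ⟨r, hr, s, hs, hs0, div_mul_cancel₀ r hs0⟩

variable {f}

/-- Descent: `K(F) ∩ k((q)) = F`. -/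
theorem coeffMap_mem_bc_iff {F : IntermediateField k (LaurentSeries k)} {x : LaurentSeries k} :
    coeffMap f x ∈ bc f F ↔ x ∈ F := by
  refine ⟨fun h => ?_, coeffMap_mem_bc⟩
  obtain ⟨y, hy, z, hz, hz0, h⟩ := exists_mul_eq_of_mem_bc f h
  obtain ⟨φ, hφ⟩ := exists_functional_lift_ne_zero (f := f) hz0
  have hxz : x * φ.lift z = φ.lift y := by rw [← φ.lift_coeffMap_mul, h]
  rw [eq_div_of_mul_eq hφ hxz]
  exact div_mem (lift_mem_of_mem_algAdjoin f φ hy) (lift_mem_of_mem_algAdjoin f φ hz)

theorem bc_le_bc_iff {F G : IntermediateField k (LaurentSeries k)} :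
    bc f F ≤ bc f G ↔ F ≤ G :=
  ⟨fun h _ hx => coeffMap_mem_bc_iff.mp (h (coeffMap_mem_bc hx)), bc_mono⟩

theorem bc_inj {F G : IntermediateField k (LaurentSeries k)} :
    bc f F = bc f G ↔ F = G :=
  ⟨fun h => le_antisymm (bc_le_bc_iff.mp h.le) (bc_le_bc_iff.mp h.ge), fun h => h ▸ rfl⟩

/-- Linear independence over `E` is preserved over `K(E)`. -/
theorem linearIndependent_bc {E : IntermediateField k (LaurentSeries k)} {ι : Type*}
    {v : ι → LaurentSeries k} (hv : LinearIndependent E v) :
    LinearIndependent (bc f E) (coeffMap f ∘ v) := by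
  classical
  rw [linearIndependent_iff']
  intro s g hg
  have hgr := fun i => exists_mul_eq_of_mem_bc f (g i).2
  choose y hy z hz hz0 hyz using hgr
  intro i hi
  -- clear denominators
  let Y : ι → LaurentSeries K := fun j => y j * ∏ l ∈ s.erase j, z l
  have hY : ∀ j ∈ s, Y j = (g j : LaurentSeries K) * ∏ l ∈ s, z l := fun j hj => by
    show y j * _ = _
    rw [← hyz j, mul_assoc, Finset.mul_prod_erase s z hj]
  have hYmem : ∀ j, Y j ∈ Algebra.adjoin K (coeffMap f '' (E : Set (LaurentSeries k))) := fun j =>
    mul_mem (hy j) (prod_mem fun l _ => hz l)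
  have hsum : ∑ j ∈ s, coeffMap f (v j) * Y j = 0 := by
    have : (∑ j ∈ s, (g j : LaurentSeries K) * coeffMap f (v j)) * ∏ l ∈ s, z l = 0 := by
      rw [show ∑ j ∈ s, (g j : LaurentSeries K) * coeffMap f (v j) = 0 from hg, zero_mul]
    rw [← this, Finset.sum_mul]
    exact Finset.sum_congr rfl fun j hj => by rw [hY j hj]; ring
  have hYi : Y i = 0 := eq_zero_of_forall_lift_eq_zero (f := f) fun φ => by
    have h := congrArg φ.lift hsum
    rw [map_sum, map_zero] at h
    simp only [φ.lift_coeffMap_mul] at h
    have h' : ∑ j ∈ s, (⟨φ.lift (Y j), lift_mem_of_mem_algAdjoin f φ (hYmem j)⟩ : E) • v j = 0 := by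
      refine Eq.trans (Finset.sum_congr rfl fun j _ => ?_) h
      rw [IntermediateField.smul_def, smul_eq_mul, mul_comm]
    simpa using congrArg Subtype.val (linearIndependent_iff'.mp hv s _ h' i hi)
  rw [hY i hi, mul_eq_zero, or_iff_left (Finset.prod_ne_zero_iff.mpr fun l _ => hz0 l)] at hYi
  exact Subtype.ext hYi

theorem isAlgebraic_coeffMap {E : IntermediateField k (LaurentSeries k)} {x : LaurentSeries k}
    (hx : IsAlgebraic E x) : IsAlgebraic (bc f E) (coeffMap f x) := by
  refine (hx.ringHom_of_comp_eq (((coeffMap f).comp E.val.toRingHom).codRestrict (bc f E)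
    fun a => coeffMap_mem_bc a.2) (coeffMap f) (RingHom.injective _) ?_)
  ext a; rfl

/-- Base change preserves the rank of an algebraic extension. -/
theorem rank_extendScalars_bc {E F : IntermediateField k (LaurentSeries k)} (hEF : E ≤ F)
    (halg : ∀ x ∈ F, IsAlgebraic E x) :
    Cardinal.lift.{u_1} (Module.rank (bc f E) (extendScalars (bc_mono (f := f) hEF))) =
      Cardinal.lift.{u_2} (Module.rank E (extendScalars hEF)) := by
  let b := Module.Free.chooseBasis E (extendScalars hEF)
  let G := extendScalars (bc_mono (f := f) hEF)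
  have hbF : ∀ i, (b i : LaurentSeries k) ∈ F := fun i => (b i).2
  have hv0 : LinearIndependent E fun i => (b i : LaurentSeries k) :=
    b.linearIndependent.map' (extendScalars hEF).val.toLinearMap
      (LinearMap.ker_eq_bot.mpr Subtype.val_injective)
  have hv := linearIndependent_bc (f := f) hv0
  let w : Module.Free.ChooseBasisIndex E (extendScalars hEF) → G :=
    fun i => ⟨coeffMap f (b i), coeffMap_mem_bc (hbF i)⟩
  have hw : LinearIndependent (bc f E) w := LinearIndependent.of_comp G.val.toLinearMap hv
  -- the span of the image is a field containing the image of `F`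
  let M := Submodule.span (bc f E) (Set.range fun i => coeffMap f (b i : LaurentSeries k))
  have himg : ∀ x ∈ F, coeffMap f x ∈ M := fun x hx => by
    have h : (x : LaurentSeries k) ∈
        Submodule.span E (Set.range fun i => (b i : LaurentSeries k)) := by
      have h := Submodule.apply_mem_span_image_of_mem_span (extendScalars hEF).val.toLinearMap
        (b.mem_span (⟨x, hx⟩ : extendScalars hEF))
      rwa [← Set.range_comp] at h
    clear hx
    induction h using Submodule.span_induction with
    | mem y hy => obtain ⟨i, rfl⟩ := hy; exact Submodule.subset_span ⟨i, rfl⟩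
    | zero => rw [map_zero]; exact zero_mem _
    | add y z _ _ hy hz => rw [map_add]; exact add_mem hy hz
    | smul a y _ hy =>
        rw [IntermediateField.smul_def, smul_eq_mul, map_mul]
        exact M.smul_mem (⟨coeffMap f a, coeffMap_mem_bc a.2⟩ : bc f E) hy
  have hG : G = adjoin (bc f E) (coeffMap f '' (F : Set (LaurentSeries k))) := by
    refine le_antisymm (fun x hx => ?_) ?_
    · have hx' : x ∈ bc f F := hx
      have hle : bc f F ≤ (adjoin (bc f E)
          (coeffMap f '' (F : Set (LaurentSeries k)))).restrictScalars K := by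
        rw [bc, adjoin_le_iff]
        exact subset_adjoin (bc f E) (coeffMap f '' (F : Set (LaurentSeries k)))
      exact hle hx'
    · rw [adjoin_le_iff]
      rintro _ ⟨x, hx, rfl⟩
      exact coeffMap_mem_bc hx
  have hspan : ⊤ ≤ Submodule.span (bc f E) (Set.range w) := by
    intro x _
    have h1 : (x : LaurentSeries K) ∈
        Algebra.adjoin (bc f E) (coeffMap f '' (F : Set (LaurentSeries k))) := by
      rw [← adjoin_toSubalgebra_of_isAlgebraic (by
        rintro _ ⟨y, hy, rfl⟩; exact isAlgebraic_coeffMap (halg y hy))]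
      exact hG.le x.2
    rw [← Subalgebra.mem_toSubmodule, Algebra.adjoin_eq_span] at h1
    have h2 : (x : LaurentSeries K) ∈ M := by
      refine Submodule.span_le.mpr (fun z hz => ?_) h1
      have : z ∈ coeffMap f '' (F : Set (LaurentSeries k)) := by
        induction hz using Submonoid.closure_induction with
        | mem z hz => exact hz
        | one => exact ⟨1, one_mem F, map_one _⟩
        | mul a c _ _ ha hc =>
            obtain ⟨a', ha', rfl⟩ := ha
            obtain ⟨c', hc', rfl⟩ := hc
            exact ⟨a' * c', mul_mem (s := F) ha' hc', map_mul _ _ _⟩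
      obtain ⟨y, hy, rfl⟩ := this
      exact himg y hy
    have h3 : Submodule.map G.val.toLinearMap (Submodule.span (bc f E) (Set.range w)) = M := by
      rw [Submodule.map_span, ← Set.range_comp]; rfl
    rw [← h3] at h2
    obtain ⟨y, hy, hyx⟩ := h2
    rwa [Subtype.val_injective hyx] at hy
  have h1 := (Module.Basis.mk hw hspan).mk_eq_rank
  have h2 := b.mk_eq_rank''
  rw [← h2]
  simpa using h1.symm

/-- Base change preserves the degree of an algebraic extension. -/
theorem relfinrank_bc {E F : IntermediateField k (LaurentSeries k)} (hEF : E ≤ F)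
    (halg : ∀ x ∈ F, IsAlgebraic E x) :
    IntermediateField.relfinrank (bc f E) (bc f F) = IntermediateField.relfinrank E F := by
  rw [IntermediateField.relfinrank_eq_finrank_of_le (bc_mono hEF),
    IntermediateField.relfinrank_eq_finrank_of_le hEF]
  simpa [Module.finrank] using congrArg Cardinal.toNat (rank_extendScalars_bc hEF halg)

section LaurentBaseChange

variable {L L' : Type*} [Field L] [Algebra ℚ L] [Field L'] [Algebra ℚ L']
variable (F₀ : IntermediateField ℚ (LaurentSeries ℚ))

theorem coeffMap_coeffEmb' (g : L →+* L') (x : LaurentSeries ℚ) :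
    coeffMap g (coeffEmb L x) = coeffEmb L' x := by
  rw [coeffEmb, coeffEmb, coeffMap_coeffMap]
  exact coeffMap_congr (RingHom.ext_rat _ _) x

variable {F₀} in
theorem coeffMap_mem_laurentBaseChange' (g : L →+* L') {x : LaurentSeries L}
    (hx : x ∈ laurentBaseChange L F₀) : coeffMap g x ∈ laurentBaseChange L' F₀ := by
  have h := coeffMap_mem_bc_comp (f := algebraMap ℚ L) g hx
  rwa [RingHom.ext_rat (g.comp (algebraMap ℚ L)) (algebraMap ℚ L')] at h

/-- The map `L(F₀) → L'(F₀)` induced by a homomorphism of constants. -/
def baseChangeMap (g : L →+* L') : laurentBaseChange L F₀ →+* laurentBaseChange L' F₀ :=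
  ((coeffMap g).comp (laurentBaseChange L F₀).val.toRingHom).codRestrict _
    fun x => coeffMap_mem_laurentBaseChange' g x.2

@[simp]
theorem coe_baseChangeMap_apply (g : L →+* L') (x : laurentBaseChange L F₀) :
    (baseChangeMap F₀ g x : LaurentSeries L') = coeffMap g x := rfl

theorem baseChangeMap_algebraMap (g : L →+* L') (c : L) :
    baseChangeMap F₀ g (algebraMap L (laurentBaseChange L F₀) c) =
      algebraMap L' (laurentBaseChange L' F₀) (g c) :=
  Subtype.ext (coeffMap_algebraMap' g c)

variable {F₀} in
/-- Descent: `L(F₀) ∩ ℚ((q)) = F₀`. -/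
theorem coeffEmb_mem_laurentBaseChange_iff {x : LaurentSeries ℚ} :
    coeffEmb L x ∈ laurentBaseChange L F₀ ↔ x ∈ F₀ :=
  coeffMap_mem_bc_iff

/-- `[L(F₀) : L(E)] = [F₀ : E]`. -/
theorem relfinrank_laurentBaseChange {E F : IntermediateField ℚ (LaurentSeries ℚ)} (hEF : E ≤ F)
    (halg : ∀ x ∈ F, IsAlgebraic E x) :
    IntermediateField.relfinrank (laurentBaseChange L E) (laurentBaseChange L F) =
      IntermediateField.relfinrank E F :=
  relfinrank_bc hEF halg

end LaurentBaseChange

end Fermat.Agent.MF.Coeff

end
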