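import Fermat.Agent.MF.Coeff.Integral

/-!
# The modular polynomial

`j_N` is integral over `ℤ[j]` once this holds for primes; the modular polynomial is the minimal
polynomial over `ℤ[j]`, and its degree is computed over any field of constants.
-/

set_option autoImplicit false
set_option maxHeartbeats 400000

noncomputable section

namespace Fermat.Agent.MF.Coeff

open ModularCurve Polynomial IntermediateField

theorem evalAtJ_eq_evalFirst :
    evalAtJ = (evalFirst jq).comp (Polynomial.mapRingHom (Int.castRingHom ℚ)) := by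
  refine Polynomial.ringHom_ext' (Subsingleton.elim _ _) ?_
  simp

theorem evalAtJ_injective : Function.Injective evalAtJ := by
  rw [injective_iff_map_eq_zero]
  intro P hP
  rw [evalAtJ_eq_evalFirst, RingHom.comp_apply, Polynomial.coe_eval₂RingHom,
    Polynomial.coe_mapRingHom, algebraMap_laurentSeries_eq_C] at hP
  have h : (P.map (Int.castRingHom ℚ)).eval₂ HahnSeries.C (jqModC ℚ) = 0 := hP
  exact (Polynomial.map_eq_zero_iff Int.cast_injective).mp
    ((eval₂_jqModC_eq_zero_iff ℚ _).mp h)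

/-- Monicity over `ℤ[j]` of a prime modular polynomial, from a relation over `K`. -/
theorem exists_int_relation_prime {K : Type*} [Field K] [Algebra ℚ K] (p : ℕ) [Fact p.Prime]
    (h : ∃ P : Polynomial K[X], P.Monic ∧ P.natDegree ≤ p + 1 ∧
      P.eval₂ (evalFirst (jqModC K)) (jqNModC K p) = 0 ∧
      P.eval₂ (evalFirst (jqNModC K p)) (jqModC K) = 0) :
    ∃ Q : Polynomial ℤ[X], Q.Monic ∧ Q.natDegree ≤ p + 1 ∧
      Q.eval₂ evalAtJ (jqN p) = 0 ∧
      Q.eval₂ ((evalFirst (jqN p)).comp (Polynomial.mapRingHom (Int.castRingHom ℚ))) jq = 0 := by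
  obtain ⟨P, hP, hdeg, h1, h2⟩ := h
  obtain ⟨P₀, hP₀, hd₀, hrel⟩ := exists_monic_relation_descent (algebraMap ℚ K) P hP
  rw [← coeffMap_jqModC (algebraMap ℚ K), ← coeffMap_jqNModC (algebraMap ℚ K) p] at h1 h2
  have g1 := hrel _ _ h1
  have g2 := hrel _ _ h2
  obtain ⟨Q, hQ, hdQ, hmap⟩ :=
    exists_int_of_swapped_relation p P₀ hP₀ (hd₀.trans_le hdeg) g1 g2
  refine ⟨Q, hQ, by omega, ?_, ?_⟩
  · rw [← hmap, Polynomial.eval₂_map] at g1
    rw [evalAtJ_eq_evalFirst]
    exact g1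
  · rw [← hmap, Polynomial.eval₂_map] at g2
    exact g2

theorem isIntegralElem_jqN_mul {a p : ℕ} [NeZero a] [NeZero p]
    (ha : evalAtJ.IsIntegralElem (jqN a)) (hp : evalAtJ.IsIntegralElem (jqN p)) :
    evalAtJ.IsIntegralElem (jqN (a * p)) := by
  let _ : Algebra ℤ[X] (LaurentSeries ℚ) := evalAtJ.toAlgebra
  obtain ⟨Q, hQ, hQ0⟩ := hp
  let S := integralClosure ℤ[X] (LaurentSeries ℚ)
  let g : ℤ[X] →+* S := Polynomial.eval₂RingHom (Int.castRingHom S) ⟨jqN a, ha⟩
  have hg : (algebraMap S (LaurentSeries ℚ)).comp g = (qExpand ℚ a).comp evalAtJ := by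
    refine Polynomial.ringHom_ext' (Subsingleton.elim _ _) ?_
    simp only [RingHom.comp_apply, evalAtJ_X, g, Polynomial.coe_eval₂RingHom, Polynomial.eval₂_X]
    rfl
  have hi : IsIntegral S (jqN (a * p)) := by
    refine ⟨Q.map g, hQ.map g, ?_⟩
    rw [Polynomial.eval₂_map, hg, show jqN (a * p) = qExpand ℚ a (jqN p) from
      (qExpand_qExpand p a jq).symm, ← Polynomial.hom_eval₂, hQ0, map_zero]
  exact isIntegral_trans (R := ℤ[X]) (jqN (a * p)) hi

theorem isIntegralElem_jqN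
    (hprime : ∀ (p : ℕ) (_ : Fact p.Prime), evalAtJ.IsIntegralElem (jqN p)) (N : ℕ) [NeZero N] :
    evalAtJ.IsIntegralElem (jqN N) := by
  suffices H : ∀ n : ℕ, ∀ hn : n ≠ 0, @RingHom.IsIntegralElem _ _ _ _ evalAtJ (@jqN n ⟨hn⟩) from
    H N (NeZero.ne N)
  intro n
  induction n using induction_on_primes with
  | zero => exact fun h => absurd rfl h
  | one =>
      intro h
      refine ⟨Polynomial.X - Polynomial.C Polynomial.X, Polynomial.monic_X_sub_C _, ?_⟩
      rw [Polynomial.eval₂_sub, Polynomial.eval₂_X, Polynomial.eval₂_C, jqN_one, evalAtJ_X,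
        sub_self]
  | prime_mul p a hp ih =>
      intro h
      have ha : a ≠ 0 := fun h0 => h (by simp [h0])
      have : NeZero a := ⟨ha⟩
      have : Fact p.Prime := ⟨hp⟩
      have : NeZero p := ⟨hp.ne_zero⟩
      exact isIntegralElem_jqN_mul (hprime p ‹_›) (ih ha)

theorem isFractionRing_evalAtJGen :
    @IsFractionRing ℤ[X] _ ℚ⟮jq⟯ _ evalAtJGen.toAlgebra := by
  let _ : Algebra ℤ[X] ℚ⟮jq⟯ := evalAtJGen.toAlgebra
  have hinj : Function.Injective evalAtJGen := fun x y h => evalAtJ_injective (by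
    simpa only [← algebraMap_comp_evalAtJGen, RingHom.comp_apply] using
      congrArg (algebraMap ℚ⟮jq⟯ (LaurentSeries ℚ)) h)
  have : FaithfulSMul ℤ[X] ℚ⟮jq⟯ := (faithfulSMul_iff_algebraMap_injective _ _).mpr hinj
  have hcomp : ∀ x, (evalAtJGen x : LaurentSeries ℚ) = evalAtJ x := fun x =>
    RingHom.congr_fun algebraMap_comp_evalAtJGen x
  refine IsFractionRing.of_field ℤ[X] ℚ⟮jq⟯ fun z => ?_
  suffices H : ∀ w ∈ ℚ⟮jq⟯, ∃ x y : ℤ[X], y ≠ 0 ∧ w = evalAtJ x / evalAtJ y by
    obtain ⟨x, y, -, h⟩ := H z z.2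
    refine ⟨x, y, Subtype.ext ?_⟩
    show (z : LaurentSeries ℚ) = (evalAtJGen x / evalAtJGen y : ℚ⟮jq⟯).val
    rw [IntermediateField.coe_div, hcomp, hcomp, h]
  intro w hw
  have hne : ∀ y : ℤ[X], y ≠ 0 → evalAtJ y ≠ 0 := fun y hy h =>
    hy (evalAtJ_injective (h.trans (map_zero _).symm))
  induction hw using IntermediateField.adjoin_induction with
  | mem w hw =>
      rw [Set.mem_singleton_iff] at hw
      exact ⟨Polynomial.X, 1, one_ne_zero, by rw [hw, evalAtJ_X, map_one, div_one]⟩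
  | algebraMap c =>
      refine ⟨Polynomial.C c.num, Polynomial.C (c.den : ℤ), by simp, ?_⟩
      rw [evalAtJ_eq_evalFirst]
      simp only [RingHom.comp_apply, Polynomial.coe_mapRingHom, Polynomial.map_C,
        Polynomial.coe_eval₂RingHom, Polynomial.eval₂_C, ← map_div₀]
      rw [eq_intCast, eq_intCast, Int.cast_natCast, Rat.num_div_den]
  | add u v _ _ hu hv =>
      obtain ⟨a, b, hb, rfl⟩ := hu
      obtain ⟨c, d, hd, rfl⟩ := hv
      exact ⟨a * d + b * c, b * d, mul_ne_zero hb hd, by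
        rw [div_add_div _ _ (hne b hb) (hne d hd), map_add, map_mul, map_mul, map_mul]⟩
  | inv u _ hu =>
      obtain ⟨a, b, hb, rfl⟩ := hu
      rcases eq_or_ne a 0 with rfl | ha
      · exact ⟨0, 1, one_ne_zero, by simp⟩
      · exact ⟨b, a, ha, inv_div _ _⟩
  | mul u v _ _ hu hv =>
      obtain ⟨a, b, hb, rfl⟩ := hu
      obtain ⟨c, d, hd, rfl⟩ := hv
      exact ⟨a * c, b * d, mul_ne_zero hb hd, by rw [div_mul_div_comm, map_mul, map_mul]⟩

section Minimal

variable (N : ℕ) [NeZero N]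

/-- The minimal polynomial of `j_N` over `ℤ[j]`. -/
def intMinpoly : Polynomial ℤ[X] := @minpoly ℤ[X] _ _ _ evalAtJ.toAlgebra (jqN N)

variable {N}

theorem intMinpoly_monic (h : evalAtJ.IsIntegralElem (jqN N)) : (intMinpoly N).Monic :=
  @minpoly.monic ℤ[X] _ _ _ evalAtJ.toAlgebra _ h

theorem intMinpoly_eval₂ : (intMinpoly N).eval₂ evalAtJ (jqN N) = 0 :=
  @minpoly.aeval ℤ[X] _ _ _ evalAtJ.toAlgebra (jqN N)

theorem map_intMinpoly (h : evalAtJ.IsIntegralElem (jqN N)) :
    (intMinpoly N).map evalAtJGen = minpoly ℚ⟮jq⟯ (jqN N) := by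
  let _ : Algebra ℤ[X] (LaurentSeries ℚ) := evalAtJ.toAlgebra
  let _ : Algebra ℤ[X] ℚ⟮jq⟯ := evalAtJGen.toAlgebra
  have : IsScalarTower ℤ[X] ℚ⟮jq⟯ (LaurentSeries ℚ) :=
    IsScalarTower.of_algebraMap_eq' algebraMap_comp_evalAtJGen.symm
  have := isFractionRing_evalAtJGen
  exact (minpoly.isIntegrallyClosed_eq_field_fractions' (K := ℚ⟮jq⟯) (R := ℤ[X]) h).symm

theorem natDegree_intMinpoly (h : evalAtJ.IsIntegralElem (jqN N)) :
    (intMinpoly N).natDegree = (minpoly ℚ⟮jq⟯ (jqN N)).natDegree := by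
  rw [← map_intMinpoly h, (intMinpoly_monic h).natDegree_map]

theorem isIntegral_adjoin_jq (h : evalAtJ.IsIntegralElem (jqN N)) : IsIntegral ℚ⟮jq⟯ (jqN N) := by
  refine ⟨(intMinpoly N).map evalAtJGen, (intMinpoly_monic h).map _, ?_⟩
  rw [Polynomial.eval₂_map, algebraMap_comp_evalAtJGen]
  exact intMinpoly_eval₂

omit [NeZero N] in
/-- `k(x, y) ⊆ k(x)(y)`. -/
theorem mem_adjoin_of_mem_pair {k E : Type*} [Field k] [Field E] [Algebra k E] {x y z : E}
    (hz : z ∈ adjoin k {x, y}) : z ∈ adjoin k⟮x⟯ {y} := by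
  induction hz using IntermediateField.adjoin_induction with
  | mem w hw =>
      rcases hw with rfl | rfl
      · exact IntermediateField.algebraMap_mem _ (⟨w, mem_adjoin_simple_self k w⟩ : k⟮w⟯)
      · exact mem_adjoin_simple_self _ _
  | algebraMap c =>
      exact IntermediateField.algebraMap_mem _
        (⟨algebraMap k E c, IntermediateField.algebraMap_mem _ c⟩ : k⟮x⟯)
  | add u v _ _ hu hv => exact add_mem hu hv
  | inv u _ hu => exact inv_mem hu
  | mul u v _ _ hu hv => exact mul_mem hu hv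

theorem natDegree_minpoly_jqN (h : evalAtJ.IsIntegralElem (jqN N)) :
    (minpoly ℚ⟮jq⟯ (jqN N)).natDegree =
      IntermediateField.relfinrank ℚ⟮jq⟯ (adjoin ℚ {jq, jqN N}) := by
  have hle : ℚ⟮jq⟯ ≤ adjoin ℚ {jq, jqN N} := adjoin.mono ℚ _ _ (by simp)
  rw [← IntermediateField.adjoin.finrank (isIntegral_adjoin_jq h),
    IntermediateField.relfinrank_eq_finrank_of_le hle]
  have : extendScalars hle = adjoin ℚ⟮jq⟯ {jqN N} := by
    refine le_antisymm (fun z hz => mem_adjoin_of_mem_pair hz) ?_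
    rw [adjoin_simple_le_iff]
    exact subset_adjoin ℚ _ (Set.mem_insert_of_mem _ rfl)
  rw [this]

/-- The modular polynomial, given integrality and the degree over some field of constants. -/
def modularPolynomialDataOf {K : Type*} [Field K] [Algebra ℚ K]
    (h : evalAtJ.IsIntegralElem (jqN N))
    (hdeg : IntermediateField.relfinrank K⟮jqModC K⟯
      (adjoin K {jqModC K, jqNModC K N}) = dedekindPsi N) :
    ModularPolynomialData N where
  Φ := intMinpoly N
  monic := intMinpoly_monic h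
  natDegree_eq := by
    rw [natDegree_intMinpoly h, natDegree_minpoly_jqN h, ← hdeg]
    have hle : ℚ⟮jq⟯ ≤ adjoin ℚ {jq, jqN N} := adjoin.mono ℚ _ _ (by simp)
    have halg : ∀ x ∈ adjoin ℚ {jq, jqN N}, IsAlgebraic ℚ⟮jq⟯ x := by
      intro x hx
      have hx' : x ∈ adjoin ℚ⟮jq⟯ {jqN N} := mem_adjoin_of_mem_pair hx
      have := IntermediateField.isAlgebraic_adjoin_simple (isIntegral_adjoin_jq h)
      exact IsAlgebraic.algebraMap (a := (⟨x, hx'⟩ : adjoin ℚ⟮jq⟯ {jqN N}))
        (Algebra.IsAlgebraic.isAlgebraic _)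
    rw [← relfinrank_bc (f := algebraMap ℚ K) hle halg, bc_adjoin_simple, bc_adjoin_pair,
      show coeffMap (algebraMap ℚ K) jq = jqModC K from coeffMap_jqModC _,
      show coeffMap (algebraMap ℚ K) (jqN N) = jqNModC K N from coeffMap_jqNModC _ N]
  eval_eq_zero := intMinpoly_eval₂

/-- `FunctionFieldGeneration`, descended from any field of constants. -/
theorem functionFieldGeneration_of {K : Type*} [Field K] [Algebra ℚ K]
    (h : ∀ (d : ℕ) (_ : NeZero d), d ∣ N →
      jqNModC K d ∈ adjoin K {jqModC K, jqNModC K N}) :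
    FunctionFieldGeneration N := by
  intro d hd hne
  rw [← coeffMap_mem_bc_iff (f := algebraMap ℚ K), bc_adjoin_pair]
  have e : ∀ (M : ℕ) [NeZero M],
      coeffMap (algebraMap ℚ K) (qExpand ℚ M jq) = jqNModC K M := fun M _ => coeffMap_jqNModC _ M
  rw [e d, e N, show coeffMap (algebraMap ℚ K) jq = jqModC K from coeffMap_jqModC _]
  exact h d hne hd

end Minimal

end Fermat.Agent.MF.Coeff

end
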