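import Fermat.Agent.Igusa.ModularEquations
import Fermat.Agent.MF.Coeff.ModularPolynomial

/-!
# `j_N` is integral over `ℤ[j]`

From the modular equation with algebraic integer coefficients of `Fermat.Agent.Igusa`, by
transitivity of integrality and injectivity of `ℚ((q)) → ℂ((q))`.
-/

set_option autoImplicit false
set_option maxHeartbeats 400000

noncomputable section

namespace Fermat.Agent.MF.Coeff

open ModularCurve Polynomial

/-- Integrality over `ℤ[j]` from a monic relation with algebraic integer coefficients. -/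
theorem isIntegralElem_of_relation {R : Type*} [CommRing R] [Algebra.IsIntegral ℤ R]
    {K : Type*} [Field K] [CharZero K] (v : R →+* K) {N : ℕ} [NeZero N] (P : Polynomial R[X])
    (hP : P.Monic)
    (h : P.eval₂ (Polynomial.eval₂RingHom (HahnSeries.C.comp v) (jqModC K)) (jqNModC K N) = 0) :
    evalAtJ.IsIntegralElem (jqN N) := by
  let f : LaurentSeries ℚ →+* LaurentSeries K := coeffMap (Rat.castHom K)
  let _ : Algebra ℤ[X] (LaurentSeries K) := (f.comp evalAtJ).toAlgebra
  let S := integralClosure ℤ[X] (LaurentSeries K)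
  have hconst : ∀ c : R, HahnSeries.C (v c) ∈ S := by
    intro c
    obtain ⟨Q, hQ, hQ0⟩ := Algebra.IsIntegral.isIntegral (R := ℤ) c
    refine ⟨Q.map Polynomial.C, hQ.map _, ?_⟩
    rw [Polynomial.eval₂_map,
      Subsingleton.elim ((algebraMap ℤ[X] (LaurentSeries K)).comp Polynomial.C)
        ((HahnSeries.C.comp v).comp (algebraMap ℤ R)),
      ← RingHom.comp_apply HahnSeries.C v, ← Polynomial.hom_eval₂, hQ0, map_zero]
  have hj : jqModC K ∈ S := by
    refine ⟨Polynomial.X - Polynomial.C Polynomial.X, Polynomial.monic_X_sub_C _, ?_⟩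
    rw [Polynomial.eval₂_sub, Polynomial.eval₂_X, Polynomial.eval₂_C, sub_eq_zero]
    show jqModC K = f (evalAtJ Polynomial.X)
    rw [evalAtJ_X]
    exact (coeffMap_jqModC _).symm
  let g : R[X] →+* S := Polynomial.eval₂RingHom
    ((HahnSeries.C.comp v).codRestrict S.toSubring hconst) ⟨jqModC K, hj⟩
  have hg : (algebraMap S (LaurentSeries K)).comp g =
      Polynomial.eval₂RingHom (HahnSeries.C.comp v) (jqModC K) := by
    refine Polynomial.ringHom_ext' ?_ ?_
    · ext c : 1
      simp only [RingHom.comp_apply, g, Polynomial.coe_eval₂RingHom, Polynomial.eval₂_C]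
      rfl
    · simp only [RingHom.comp_apply, g, Polynomial.coe_eval₂RingHom, Polynomial.eval₂_X]
      rfl
  have hi : IsIntegral S (jqNModC K N) := by
    refine ⟨P.map g, hP.map g, ?_⟩
    rw [Polynomial.eval₂_map, hg, h]
  obtain ⟨Q, hQ, hQ0⟩ := isIntegral_trans (R := ℤ[X]) (jqNModC K N) hi
  refine ⟨Q, hQ, coeffMap_injective' (Rat.castHom K) ?_⟩
  rw [map_zero, Polynomial.hom_eval₂, show coeffMap (Rat.castHom K) (jqN N) = jqNModC K N from
    coeffMap_jqNModC _ N]
  exact hQ0

/-- `j_N` is integral over `ℤ[j]`. -/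
theorem isIntegralElem_jqN_all (N : ℕ) [NeZero N] : evalAtJ.IsIntegralElem (jqN N) := by
  classical
  let _ : Fintype (Igusa.Coset N) := Fintype.ofFinite _
  have hf := Igusa.conjugable_jdFun (N := N) (d := N) dvd_rfl
  obtain ⟨P, hP, -, hmap⟩ := Igusa.exists_charPoly hf
  have hroot : P.eval₂ (Igusa.evJ N) (qExpand Igusa.R0 (N * N) (jqModC Igusa.R0)) = 0 := by
    rw [Polynomial.eval₂_eq_eval_map, hmap, Polynomial.eval_prod]
    refine Finset.prod_eq_zero
      (Finset.mem_univ ((1 : Matrix.SpecialLinearGroup (Fin 2) ℤ) : Igusa.Coset N)) ?_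
    rw [Polynomial.eval_sub, Polynomial.eval_X, Polynomial.eval_C, Igusa.expHom_conj_jdFun dvd_rfl,
      Igusa.jSer_tri_one dvd_rfl, sub_self]
  have hev : Igusa.evJ N = (qExpand Igusa.R0 N).comp
      (Polynomial.eval₂RingHom HahnSeries.C (jqModC Igusa.R0)) := by
    refine Polynomial.ringHom_ext' ?_ ?_
    · ext c : 1
      simp only [Igusa.evJ, RingHom.comp_apply, Polynomial.coe_eval₂RingHom, Polynomial.eval₂_C,
        qExpand_C]
    · simp only [Igusa.evJ, RingHom.comp_apply, Polynomial.coe_eval₂RingHom, Polynomial.eval₂_X]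
  rw [hev, show qExpand Igusa.R0 (N * N) (jqModC Igusa.R0) =
    qExpand Igusa.R0 N (jqNModC Igusa.R0 N) from (qExpand_qExpand N N _).symm,
    ← Polynomial.hom_eval₂] at hroot
  have h0 := qExpand_injective N (hroot.trans (map_zero _).symm)
  refine isIntegralElem_of_relation (R := Igusa.R0) Igusa.valC P hP ?_
  have h1 := congrArg (coeffMap Igusa.valC) h0
  rw [Polynomial.hom_eval₂, map_zero, coeffMap_jqNModC] at h1
  refine Eq.trans ?_ h1
  congr 1
  refine Polynomial.ringHom_ext' ?_ ?_
  · ext c : 1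
    simp only [RingHom.comp_apply, Polynomial.coe_eval₂RingHom, Polynomial.eval₂_C]
    exact (coeffMap_single Igusa.valC 0 c).symm
  · simp only [RingHom.comp_apply, Polynomial.coe_eval₂RingHom, Polynomial.eval₂_X, coeffMap_jqModC]

end Fermat.Agent.MF.Coeff

end
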