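import Fermat.Agent.MF.Coeff.FieldK
import Fermat.Agent.MF.Coeff.IntegralJN

/-!
# The modular polynomial data of every level
-/

set_option autoImplicit false
set_option maxHeartbeats 400000

noncomputable section

namespace Fermat.Agent.MF.Coeff

open ModularCurve IntermediateField

/-- The integral monic modular polynomial of level `N`. -/
def modularPolynomialData (N : ℕ) [NeZero N] : ModularPolynomialData N :=
  modularPolynomialDataOf (K := ℚ) (isIntegralElem_jqN_all N) (by
    have h := relfinrank_laurentBaseChange_full ℚ N
    rwa [laurentBaseChange_full_eq] at h)

theorem modularPolynomialData_Φ (N : ℕ) [NeZero N] :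
    (modularPolynomialData N).Φ = intMinpoly N := rfl

end Fermat.Agent.MF.Coeff

end
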