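import Fermat.Agent.MF.Coeff.BaseChange
import Fermat.Agent.MF.Coeff.Series

/-!
# Constants: algebraically closed in `K((q))`, and descent of coefficientwise fixed elements
-/

set_option autoImplicit false
set_option maxHeartbeats 400000

noncomputable section

namespace Fermat.Agent.MF.Coeff

open ModularCurve Polynomial

variable {K : Type*} [Field K]

theorem coeff_aeval_of_coeff_lt {x : LaurentSeries K} {m : ℤ} (hm : m < 0)
    (hlt : ∀ i < m, x.coeff i = 0) (P : K[X]) :
    (P.eval₂ HahnSeries.C x).coeff (P.natDegree * m) =
      P.leadingCoeff * x.coeff m ^ P.natDegree := by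
  have key : ∀ n : ℕ, (∀ i < (n : ℤ) * m, (x ^ n).coeff i = 0) ∧
      (x ^ n).coeff ((n : ℤ) * m) = x.coeff m ^ n := by
    intro n
    induction n with
    | zero =>
        refine ⟨fun i hi => ?_, by simp⟩
        rw [pow_zero, HahnSeries.coeff_one, if_neg (by push_cast at hi; omega)]
    | succ n ih =>
        obtain ⟨h1, h2⟩ := ih
        have hsum : ∀ k : ℤ, k ≤ ((n + 1 : ℕ) : ℤ) * m →
            (x ^ (n + 1)).coeff k =
              if k = ((n + 1 : ℕ) : ℤ) * m then x.coeff m ^ (n + 1) else 0 := by
          intro k hk
          rw [pow_succ, HahnSeries.coeff_mul]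
          by_cases hkm : k = ((n + 1 : ℕ) : ℤ) * m
          · rw [if_pos hkm, Finset.sum_eq_single ((n : ℤ) * m, m)]
            · rw [h2, pow_succ]
            · intro ij hij hne
              rw [Finset.mem_antidiagonal] at hij
              rcases lt_trichotomy ij.1 ((n : ℤ) * m) with h | h | h
              · rw [h1 _ h, zero_mul]
              · refine absurd (Prod.ext h ?_) hne
                have := hij.2.2
                subst hkm
                push_cast at this
                linear_combination this - h
              · rw [hlt ij.2 (by have := hij.2.2; subst hkm; push_cast at this; nlinarith), mul_zero]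
            · intro hnot
              rw [Finset.mem_antidiagonal] at hnot
              simp only [HahnSeries.mem_support] at hnot
              by_contra h0
              obtain ⟨ha, hb⟩ := mul_ne_zero_iff.mp h0
              exact hnot ⟨ha, hb, by subst hkm; push_cast; ring⟩
          · rw [if_neg hkm]
            refine Finset.sum_eq_zero fun ij hij => ?_
            rw [Finset.mem_antidiagonal] at hij
            rcases lt_or_ge ij.1 ((n : ℤ) * m) with h | h
            · rw [h1 _ h, zero_mul]
            · have : k < ((n + 1 : ℕ) : ℤ) * m := lt_of_le_of_ne hk hkm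
              rw [hlt ij.2 (by have := hij.2.2; push_cast at *; nlinarith), mul_zero]
        exact ⟨fun i hi => by rw [hsum i hi.le, if_neg hi.ne],
          by rw [hsum _ le_rfl, if_pos rfl]⟩
  rw [Polynomial.eval₂_eq_sum_range, HahnSeries.coeff_sum, Finset.sum_eq_single P.natDegree]
  · rw [HahnSeries.C_mul_eq_smul, HahnSeries.coeff_smul, (key _).2, smul_eq_mul]
    rfl
  · intro i hi hne
    rw [Finset.mem_range] at hi
    have hlt' : i < P.natDegree := by omega
    rw [HahnSeries.C_mul_eq_smul, HahnSeries.coeff_smul, (key i).1 _ ?_, smul_zero]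
    exact mul_lt_mul_of_neg_right (by exact_mod_cast hlt') hm
  · simp

/-- A series with a pole is transcendental over the constants. -/
theorem transcendental_of_order_neg {x : LaurentSeries K} (hx : x.order < 0) :
    Transcendental K x := by
  rintro ⟨P, hP0, hP⟩
  have hx0 : x ≠ 0 := by rintro rfl; simp at hx
  have h := coeff_aeval_of_coeff_lt hx (fun i hi => HahnSeries.coeff_eq_zero_of_lt_order hi) P
  rw [Polynomial.aeval_def, algebraMap_laurentSeries_eq_C] at hP
  rw [hP, HahnSeries.coeff_zero] at h
  exact mul_ne_zero (Polynomial.leadingCoeff_ne_zero.mpr hP0)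
    (pow_ne_zero _ (HahnSeries.coeff_order_eq_zero.not.mpr hx0)) h.symm

/-- The constants are algebraically closed in `K((q))`. -/
theorem eq_constant_of_isAlgebraic {x : LaurentSeries K} (hx : IsAlgebraic K x) :
    x = algebraMap K (LaurentSeries K) (x.coeff 0) := by
  have hnn : ∀ {y : LaurentSeries K}, IsAlgebraic K y → 0 ≤ y.order := fun {y} hy => by
    by_contra h
    exact transcendental_of_order_neg (not_le.mp h) hy
  set y := x - algebraMap K (LaurentSeries K) (x.coeff 0) with hy
  have hyalg : IsAlgebraic K y :=
    (IsIntegral.sub (isAlgebraic_iff_isIntegral.mp hx) isIntegral_algebraMap).isAlgebraic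
  have hy0 : y.coeff 0 = 0 := by
    rw [hy, HahnSeries.coeff_sub, algebraMap_laurentSeries_eq_single,
      HahnSeries.coeff_single_same, sub_self]
  rcases eq_or_ne y 0 with h | h
  · exact sub_eq_zero.mp h
  · exfalso
    have h1 := hnn hyalg
    have h2 := hnn hyalg.inv
    have hne : y.order ≠ 0 := fun h0 => HahnSeries.coeff_order_eq_zero.not.mpr h (by rw [h0]; exact hy0)
    have h3 : y.order + y⁻¹.order = 0 := by
      rw [← HahnSeries.order_mul h (inv_ne_zero h), mul_inv_cancel₀ h, HahnSeries.order_one]
    omega

end Fermat.Agent.MF.Coeff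

end
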