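import Fermat.Agent.MF.Coeff.BaseChange
import Fermat.Agent.MF.IntStruct.FieldEndo

/-!
# Elements of `ℂ(F)` fixed by the coefficientwise action descend to `F`
-/

set_option autoImplicit false
set_option maxHeartbeats 400000

noncomputable section

namespace Fermat.Agent.MF.Coeff

open ModularCurve

theorem exists_coeffEmb_eq_of_forall_fixed {x : LaurentSeries ℂ}
    (hx : ∀ σ : ℂ →+* ℂ, coeffMap σ x = x) : ∃ y : LaurentSeries ℚ, coeffEmb ℂ y = x := by
  have h : ∀ n, ∃ q : ℚ, (q : ℂ) = x.coeff n := fun n =>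
    IntStruct.exists_rat_eq_of_forall_fixed fun σ => by
      simpa using congrArg (fun z : LaurentSeries ℂ => z.coeff n) (hx σ)
  choose c hc using h
  refine ⟨⟨c, x.isPWO_support.mono fun n hn h0 => hn ?_⟩, ?_⟩
  · simpa [h0] using hc n
  · ext n
    simp [hc n]

variable (F : IntermediateField ℚ (LaurentSeries ℚ))

theorem exists_mem_of_forall_fixed {x : LaurentSeries ℂ} (hxF : x ∈ laurentBaseChange ℂ F)
    (hx : ∀ σ : ℂ →+* ℂ, coeffMap σ x = x) : ∃ y ∈ F, coeffEmb ℂ y = x := by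
  obtain ⟨y, rfl⟩ := exists_coeffEmb_eq_of_forall_fixed hx
  exact ⟨y, coeffEmb_mem_laurentBaseChange_iff.mp hxF, rfl⟩

end Fermat.Agent.MF.Coeff

end
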