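import Fermat.Agent.MF.Coeff.BaseChange
import Fermat.Agent.MF.Coeff.Series
import Mathlib.RingTheory.Polynomial.GaussLemma
import Mathlib.FieldTheory.Minpoly.IsIntegrallyClosed
import Mathlib.RingTheory.Polynomial.UniqueFactorization
import Mathlib.RingTheory.RootsOfUnity.PrimitiveRoots
import Mathlib.FieldTheory.IsAlgClosed.AlgebraicClosure

/-!
# Descent of algebraic relations from `K` to `k`, and from `ℚ` to `ℤ`

A monic relation of degree `n` between two `k`-series with coefficients in `K` gives one with
coefficients in `k`.  For a prime `p`, a monic relation of degree `≤ p+1` between `j` and `j_p`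
which also holds with the arguments exchanged has integral coefficients.
-/

set_option autoImplicit false
set_option maxHeartbeats 400000

noncomputable section

namespace Fermat.Agent.MF.Coeff

open ModularCurve Polynomial

section Descent

variable {k K : Type*} [Field k] [Field K] {f : k →+* K}

theorem Functional.lift_eval₂_mul (φ : Functional f) (x y : LaurentSeries k) (Q : K[X]) :
    φ.lift (Q.eval₂ (algebraMap K (LaurentSeries K)) (coeffMap f x) * coeffMap f y) =
      (∑ m ∈ Finset.range (Q.natDegree + 1), Polynomial.C (φ.toAddHom (Q.coeff m)) * X ^ m).eval₂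
        (algebraMap k (LaurentSeries k)) x * y := by
  rw [Polynomial.eval₂_eq_sum_range, Polynomial.eval₂_finsetSum, Finset.sum_mul, Finset.sum_mul,
    map_sum]
  refine Finset.sum_congr rfl fun m _ => ?_
  rw [← map_pow, mul_assoc, ← map_mul (coeffMap f), φ.lift_algebraMap_mul, Polynomial.eval₂_mul,
    Polynomial.eval₂_C, Polynomial.eval₂_X_pow, mul_assoc]

variable (f) in
/-- Descend monic relations of degree `n` along a field extension of constants: one polynomial over
`k` inherits all the relations between `k`-series. -/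
theorem exists_monic_relation_descent (P : Polynomial K[X]) (hP : P.Monic) :
    ∃ Q : Polynomial k[X], Q.Monic ∧ Q.natDegree = P.natDegree ∧ ∀ x y : LaurentSeries k,
      P.eval₂ (Polynomial.eval₂RingHom (algebraMap K (LaurentSeries K)) (coeffMap f x))
        (coeffMap f y) = 0 →
      Q.eval₂ (Polynomial.eval₂RingHom (algebraMap k (LaurentSeries k)) x) y = 0 := by
  obtain ⟨φ, hφ⟩ := exists_functional f (one_ne_zero (α := K))
  set n := P.natDegree
  let q : ℕ → k[X] := fun i =>
    ∑ m ∈ Finset.range ((P.coeff i).natDegree + 1),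
      Polynomial.C (φ.toAddHom ((P.coeff i).coeff m)) * X ^ m
  let S : Polynomial k[X] := ∑ i ∈ Finset.range n, Polynomial.C (q i) * X ^ i
  have hS : S.degree < n := by
    refine lt_of_le_of_lt (Polynomial.degree_sum_le _ _) ?_
    refine (Finset.sup_lt_iff (WithBot.bot_lt_coe n)).mpr ?_
    intro i hi
    exact lt_of_le_of_lt (Polynomial.degree_C_mul_X_pow_le i (q i))
      (WithBot.coe_lt_coe.mpr (Finset.mem_range.mp hi))
  refine ⟨X ^ n + S, Polynomial.monic_X_pow_add hS, ?_, ?_⟩
  · have hdeg : (X ^ n + S).degree = ((n : ℕ) : WithBot ℕ) := by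
      rw [add_comm, Polynomial.degree_add_eq_right_of_degree_lt (by rwa [Polynomial.degree_X_pow]),
        Polynomial.degree_X_pow]
    exact Polynomial.natDegree_eq_of_degree_eq_some hdeg
  · intro x y h
    have h1 := congrArg φ.lift h
    rw [Polynomial.eval₂_eq_sum_range, Finset.sum_range_succ, map_zero] at h1
    rw [show P.coeff P.natDegree = 1 from hP, map_one, one_mul, map_add, map_sum] at h1
    rw [Polynomial.eval₂_add, Polynomial.eval₂_X_pow, Polynomial.eval₂_finsetSum]
    rw [add_comm]
    refine Eq.trans ?_ h1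
    congr 1
    · refine Finset.sum_congr rfl fun i _ => ?_
      rw [Polynomial.eval₂_mul, Polynomial.eval₂_C, Polynomial.eval₂_X_pow,
        Polynomial.coe_eval₂RingHom, Polynomial.coe_eval₂RingHom, ← map_pow, φ.lift_eval₂_mul]
    · have h2 := φ.lift_algebraMap_mul 1 (y ^ n)
      rw [map_one, one_mul, hφ, map_one, one_mul, map_pow] at h2
      exact h2.symm

end Descent

section CoeffEval

theorem coeffMap_eval₂RingHom {K L : Type*} [Field K] [Field L] (f : K →+* L)
    (x : LaurentSeries K) :
    (coeffMap f).comp (Polynomial.eval₂RingHom (algebraMap K (LaurentSeries K)) x) =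
      (Polynomial.eval₂RingHom (algebraMap L (LaurentSeries L)) (coeffMap f x)).comp
        (Polynomial.mapRingHom f) := by
  refine Polynomial.ringHom_ext' ?_ ?_
  · ext c : 1
    simp only [RingHom.comp_apply, Polynomial.coe_eval₂RingHom, Polynomial.coe_mapRingHom,
      Polynomial.map_C, Polynomial.eval₂_C]
    rw [algebraMap_laurentSeries_eq_single, algebraMap_laurentSeries_eq_single, coeffMap_single]
  · simp only [RingHom.comp_apply, Polynomial.coe_eval₂RingHom, Polynomial.coe_mapRingHom,
      Polynomial.map_X, Polynomial.eval₂_X]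

theorem qExpand_comp_eval₂RingHom {K : Type*} [Field K] (d : ℕ) [NeZero d] (x : LaurentSeries K) :
    (qExpand K d).comp (Polynomial.eval₂RingHom (algebraMap K (LaurentSeries K)) x) =
      Polynomial.eval₂RingHom (algebraMap K (LaurentSeries K)) (qExpand K d x) := by
  refine Polynomial.ringHom_ext' ?_ ?_
  · ext c : 1
    simp only [RingHom.comp_apply, Polynomial.coe_eval₂RingHom, Polynomial.eval₂_C]
    rw [algebraMap_laurentSeries_eq_C, qExpand_C]
  · simp only [RingHom.comp_apply, Polynomial.coe_eval₂RingHom, Polynomial.eval₂_X]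

theorem twist_comp_eval₂RingHom {K : Type*} [Field K] {z : Kˣ} {d : ℕ} [NeZero d] (hz : z ^ d = 1)
    (x : LaurentSeries K) :
    (twist z).comp (Polynomial.eval₂RingHom (algebraMap K (LaurentSeries K)) (qExpand K d x)) =
      Polynomial.eval₂RingHom (algebraMap K (LaurentSeries K)) (qExpand K d x) := by
  refine Polynomial.ringHom_ext' ?_ ?_
  · ext c : 1
    simp only [RingHom.comp_apply, Polynomial.coe_eval₂RingHom, Polynomial.eval₂_C, twist_algebraMap]
  · simp only [RingHom.comp_apply, Polynomial.coe_eval₂RingHom, Polynomial.eval₂_X, twist_qExpand hz]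

end CoeffEval

section Prime

variable {K : Type*} [Field K]

/-- `P ↦ P(x, ·)` on bivariate polynomials. -/
abbrev evalFirst (x : LaurentSeries K) : K[X] →+* LaurentSeries K :=
  Polynomial.eval₂RingHom (algebraMap K (LaurentSeries K)) x

theorem eq_prod_of_swapped_relation (p : ℕ) [hp : Fact p.Prime] {ζ : Kˣ}
    (hζ : IsPrimitiveRoot ζ p) (P : Polynomial K[X]) (hP : P.Monic) (hdeg : P.natDegree ≤ p + 1)
    (h1 : P.eval₂ (evalFirst (jqModC K)) (jqNModC K p) = 0)
    (h2 : P.eval₂ (evalFirst (jqNModC K p)) (jqModC K) = 0) :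
    P.map (evalFirst (jqNModC K p)) =
      (X - C (qExpand K p (jqNModC K p))) *
        ∏ b ∈ Finset.range p, (X - C (twist (ζ ^ b) (jqModC K))) := by
  classical
  have : NeZero p := ⟨hp.out.ne_zero⟩
  have hroot0 : (P.map (evalFirst (jqNModC K p))).IsRoot (qExpand K p (jqNModC K p)) := by
    have := congrArg (qExpand K p) h1
    rw [Polynomial.hom_eval₂, map_zero, qExpand_comp_eval₂RingHom] at this
    rw [Polynomial.IsRoot, Polynomial.eval_map]
    exact this
  have hrootb : ∀ b : ℕ, (P.map (evalFirst (jqNModC K p))).IsRoot (twist (ζ ^ b) (jqModC K)) := by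
    intro b
    have hz : (ζ ^ b) ^ p = 1 := by rw [← pow_mul, mul_comm, pow_mul, hζ.pow_eq_one, one_pow]
    have := congrArg (twist (ζ ^ b)) h2
    rw [Polynomial.hom_eval₂, map_zero, jqNModC, twist_comp_eval₂RingHom hz] at this
    rw [Polynomial.IsRoot, Polynomial.eval_map]
    exact this
  let r : Option (Fin p) → LaurentSeries K := fun o =>
    o.elim (qExpand K p (jqNModC K p)) fun b => twist (ζ ^ (b : ℕ)) (jqModC K)
  have hcoef : ∀ b : ℕ, (twist (ζ ^ b) (jqModC K)).coeff (-1) = ((ζ ^ b)⁻¹ : Kˣ) := fun b => by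
    rw [twist_coeff, coeff_jqModC_neg_one, mul_one, zpow_neg_one]
  have hz0 : (qExpand K p (jqNModC K p)).coeff (-1) = 0 := by
    refine qExpand_coeff_of_not_dvd p _ ?_
    rw [Int.dvd_neg]
    intro h
    have := Int.le_of_dvd one_pos h
    have := hp.out.two_le
    omega
  have hinj : Function.Injective r := by
    rintro (_ | a) (_ | b) h
    · rfl
    · exfalso
      have := congrArg (fun x : LaurentSeries K => x.coeff (-1)) h
      simp only [r, Option.elim, hz0, hcoef] at this
      exact Units.ne_zero _ this.symm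
    · exfalso
      have := congrArg (fun x : LaurentSeries K => x.coeff (-1)) h
      simp only [r, Option.elim, hz0, hcoef] at this
      exact Units.ne_zero _ this
    · have := congrArg (fun x : LaurentSeries K => x.coeff (-1)) h
      simp only [r, Option.elim, hcoef] at this
      rw [Fin.val_injective (hζ.pow_inj a.2 b.2 (inv_injective (Units.ext this)))]
  have hmon : (P.map (evalFirst (jqNModC K p))).Monic := hP.map _
  have hdvd : ∏ o, (X - C (r o)) ∣ P.map (evalFirst (jqNModC K p)) := by
    refine Fintype.prod_dvd_of_coprime (Polynomial.pairwise_coprime_X_sub_C hinj) fun o => ?_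
    rw [Polynomial.dvd_iff_isRoot]
    rcases o with _ | b
    exacts [hroot0, hrootb b]
  have hprodmon : (∏ o, (X - C (r o))).Monic :=
    Polynomial.monic_prod_of_monic _ _ fun o _ => Polynomial.monic_X_sub_C _
  have hle : (P.map (evalFirst (jqNModC K p))).natDegree ≤ (∏ o, (X - C (r o))).natDegree := by
    rw [Polynomial.natDegree_prod_of_monic _ _ fun o _ => Polynomial.monic_X_sub_C _]
    simp only [Polynomial.natDegree_X_sub_C, Finset.sum_const, Finset.card_univ,
      Fintype.card_option, Fintype.card_fin, smul_eq_mul, mul_one]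
    rw [hP.natDegree_map]
    exact hdeg
  have heq := Polynomial.eq_of_monic_of_dvd_of_natDegree_le hprodmon hmon hdvd hle
  rw [heq, Fintype.prod_option]
  simp only [r, Option.elim]
  rw [Fin.prod_univ_eq_prod_range (fun b => X - C (twist (ζ ^ b) (jqModC K)))]

end Prime

section PrimeIntegral

/-- The algebraic integers. -/
abbrev algInts : Subring (AlgebraicClosure ℚ) :=
  (integralClosure ℤ (AlgebraicClosure ℚ)).toSubring

theorem exists_primitiveRoot (p : ℕ) [Fact p.Prime] :
    ∃ ζ : (AlgebraicClosure ℚ)ˣ, IsPrimitiveRoot ζ p := by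
  have : NeZero p := ⟨(Fact.out : p.Prime).ne_zero⟩
  obtain ⟨z, hz⟩ := HasEnoughRootsOfUnity.exists_primitiveRoot (AlgebraicClosure ℚ) p
  refine ⟨(hz.isUnit (NeZero.ne p)).unit, IsPrimitiveRoot.coe_units_iff.mp ?_⟩
  rwa [IsUnit.unit_spec]

/-- A monic, degree `≤ p + 1`, swappable relation between `j` and `j_p` over `ℚ` is defined over
`ℤ`. -/
theorem exists_int_of_swapped_relation (p : ℕ) [hp : Fact p.Prime] (P : Polynomial ℚ[X])
    (hP : P.Monic) (hdeg : P.natDegree ≤ p + 1)
    (h1 : P.eval₂ (evalFirst (jqModC ℚ)) (jqNModC ℚ p) = 0)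
    (h2 : P.eval₂ (evalFirst (jqNModC ℚ p)) (jqModC ℚ) = 0) :
    ∃ Q : Polynomial ℤ[X], Q.Monic ∧ Q.natDegree = P.natDegree ∧
      Q.map (Polynomial.mapRingHom (Int.castRingHom ℚ)) = P := by
  have : NeZero p := ⟨hp.out.ne_zero⟩
  let ι : ℚ →+* AlgebraicClosure ℚ := algebraMap ℚ (AlgebraicClosure ℚ)
  obtain ⟨ζ, hζ⟩ := exists_primitiveRoot p
  let P' := P.map (Polynomial.mapRingHom ι)
  have hrel : ∀ x y : LaurentSeries ℚ, P.eval₂ (evalFirst x) y = 0 →
      P'.eval₂ (evalFirst (coeffMap ι x)) (coeffMap ι y) = 0 := by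
    intro x y h
    have := congrArg (coeffMap ι) h
    rw [Polynomial.hom_eval₂, map_zero, coeffMap_eval₂RingHom] at this
    rwa [Polynomial.eval₂_map]
  have e1 : coeffMap ι (jqModC ℚ) = jqModC (AlgebraicClosure ℚ) := coeffMap_jqModC ι
  have e2 : coeffMap ι (jqNModC ℚ p) = jqNModC (AlgebraicClosure ℚ) p := coeffMap_jqNModC ι p
  have g1 := hrel _ _ h1
  have g2 := hrel _ _ h2
  rw [e1, e2] at g1 g2
  have hfac := eq_prod_of_swapped_relation p hζ P' (hP.map _)
    (Polynomial.natDegree_map_le.trans hdeg) g1 g2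
  have hzint : ∀ z : (AlgebraicClosure ℚ)ˣ, z ^ p = 1 → (z : AlgebraicClosure ℚ) ∈ algInts := by
    intro z hz
    refine IsIntegral.of_pow hp.out.pos ?_
    rw [← Units.val_pow_eq_pow_val, hz]
    exact isIntegral_one
  have hcoeff : ∀ n, (P.map (evalFirst (jqNModC ℚ p))).coeff n ∈
      coeffSubring ((algInts).comap ι) := by
    intro n m
    rw [Subring.mem_comap]
    have hmem : (P'.map (evalFirst (jqNModC (AlgebraicClosure ℚ) p))).coeff n ∈
        coeffSubring algInts := by
      have hprod : P'.map (evalFirst (jqNModC (AlgebraicClosure ℚ) p)) =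
          ∏ b ∈ Finset.range (p + 1), (X - C (if b < p then twist (ζ ^ b) (jqModC (AlgebraicClosure ℚ))
            else qExpand _ p (jqNModC _ p))) := by
        rw [hfac, mul_comm, Finset.prod_range_succ, if_neg (lt_irrefl p)]
        congr 1
        exact Finset.prod_congr rfl fun b hb => by rw [if_pos (Finset.mem_range.mp hb)]
      rw [hprod]
      refine coeff_prod_X_sub_C_mem _ _ (fun b _ => ?_) n
      split
      · refine twist_mem_coeffSubring (hzint _ ?_) (hzint _ ?_) jqModC_mem_coeffSubring
        · rw [← pow_mul, mul_comm, pow_mul, hζ.pow_eq_one, one_pow]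
        · rw [inv_pow, ← pow_mul, mul_comm, pow_mul, hζ.pow_eq_one, one_pow, inv_one]
      · exact (qExpand_mem_coeffSubring_iff p).mpr
          ((qExpand_mem_coeffSubring_iff p).mpr jqModC_mem_coeffSubring)
    have := hmem m
    rw [Polynomial.map_map, Polynomial.coeff_map, ← e2, ← coeffMap_eval₂RingHom,
      RingHom.comp_apply, coeffMap_coeff] at this
    rwa [Polynomial.coeff_map]
  have hint : ∀ n i, ∃ z : ℤ, (z : ℚ) = (P.coeff n).coeff i := by
    intro n i
    have hmem : (P.coeff n).eval₂ HahnSeries.C (jqModC ℚ) ∈ coeffSubring ((algInts).comap ι) := by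
      refine (qExpand_mem_coeffSubring_iff p).mp ?_
      have := hcoeff n
      have hc : qExpand ℚ p ((P.coeff n).eval₂ HahnSeries.C (jqModC ℚ)) =
          evalFirst (jqNModC ℚ p) (P.coeff n) := by
        have h := RingHom.congr_fun
          (qExpand_comp_eval₂RingHom (K := ℚ) p (jqModC ℚ)) (P.coeff n)
        rw [RingHom.comp_apply, Polynomial.coe_eval₂RingHom, algebraMap_laurentSeries_eq_C] at h
        exact h.trans (by rw [← algebraMap_laurentSeries_eq_C]; rfl)
      rw [Polynomial.coeff_map, ← hc] at this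
      exact this
    have hI := coeff_mem_of_eval_jqModC_mem _ hmem i
    rw [Subring.mem_comap] at hI
    have hI' : IsIntegral ℤ ((P.coeff n).coeff i) :=
      (isIntegral_algebraMap_iff ι.injective).mp hI
    obtain ⟨z, hz⟩ := IsIntegrallyClosed.isIntegral_iff.mp hI'
    exact ⟨z, by simpa using hz⟩
  have hlift : P ∈ Polynomial.lifts (Polynomial.mapRingHom (Int.castRingHom ℚ)) := by
    rw [Polynomial.lifts_iff_coeff_lifts]
    intro n
    obtain ⟨q, hq⟩ : P.coeff n ∈ Polynomial.lifts (Int.castRingHom ℚ) :=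
      (Polynomial.lifts_iff_coeff_lifts _).mpr fun i => by
        obtain ⟨z, hz⟩ := hint n i
        exact ⟨z, hz⟩
    exact ⟨q, hq⟩
  obtain ⟨Q, hQ, hd, hm⟩ := Polynomial.lifts_and_natDegree_eq_and_monic hlift hP
  exact ⟨Q, hm, hd, hQ⟩

end PrimeIntegral

end Fermat.Agent.MF.Coeff

end
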