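import Fermat.Prelude.Def_ModularCurve_LaurentCoeff
import Mathlib.LinearAlgebra.FreeModule.Basic
import Mathlib.LinearAlgebra.Dual.Lemmas

/-!
# Laurent series over a subfield and constants of a bigger field are linearly disjoint

For a homomorphism of fields `f : k →+* K` and a `k`-linear functional `φ : K → k` we apply `φ`
coefficientwise; this is linear over `k((q))`, hence descent statements.
-/

set_option autoImplicit false

noncomputable section

namespace Fermat.Agent.MF.Coeff

open HahnSeries ModularCurve

variable {k K : Type*} [Field k] [Field K]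

/-- An additive functional `K → k` which is linear along `f`. -/
structure Functional (f : k →+* K) where
  /-- the underlying additive map -/
  toAddHom : K →+ k
  map_mul' : ∀ (a : k) (c : K), toAddHom (f a * c) = a * toAddHom c

variable {f : k →+* K}

/-- Apply a functional to every coefficient. -/
def Functional.lift (φ : Functional f) : LaurentSeries K →+ LaurentSeries k where
  toFun x := x.map φ.toAddHom
  map_zero' := by ext n; simp
  map_add' x y := by ext n; simp

@[simp]
theorem Functional.lift_coeff (φ : Functional f) (x : LaurentSeries K) (n : ℤ) :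
    (φ.lift x).coeff n = φ.toAddHom (x.coeff n) := rfl

theorem Functional.lift_coeffMap_mul (φ : Functional f) (a : LaurentSeries k)
    (y : LaurentSeries K) :
    φ.lift (coeffMap f a * y) = a * φ.lift y := by
  ext n
  have ha : (coeffMap f a).support ⊆ a.support := by
    intro m hm
    rw [HahnSeries.mem_support] at hm ⊢
    intro h
    exact hm (by rw [coeffMap_coeff, h, map_zero])
  have hy : (φ.lift y).support ⊆ y.support := by
    intro m hm
    rw [HahnSeries.mem_support] at hm ⊢
    intro h
    exact hm (by rw [φ.lift_coeff, h, map_zero])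
  rw [φ.lift_coeff, HahnSeries.coeff_mul_left' a.isPWO_support ha,
    HahnSeries.coeff_mul_right' y.isPWO_support hy, map_sum]
  exact Finset.sum_congr rfl fun ij _ => by rw [coeffMap_coeff, φ.map_mul', φ.lift_coeff]

variable (f) in
/-- There is a functional taking the value one at any given nonzero element. -/
theorem exists_functional {c : K} (hc : c ≠ 0) :
    ∃ φ : Functional f, φ.toAddHom c = 1 := by
  let _ := f.toAlgebra
  obtain ⟨φ, hφ⟩ := Module.Projective.exists_dual_ne_zero k hc
  refine ⟨⟨((φ c)⁻¹ • φ).toAddMonoidHom, fun a b => ?_⟩, ?_⟩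
  · show ((φ c)⁻¹ • φ) (f a * b) = a * ((φ c)⁻¹ • φ) b
    rw [show f a * b = a • b from rfl, map_smul, smul_eq_mul]
  · show ((φ c)⁻¹ • φ) c = 1
    rw [LinearMap.smul_apply, smul_eq_mul, inv_mul_cancel₀ hφ]

theorem exists_functional_lift_ne_zero {y : LaurentSeries K} (hy : y ≠ 0) :
    ∃ φ : Functional f, φ.lift y ≠ 0 := by
  obtain ⟨n, hn⟩ : ∃ n, y.coeff n ≠ 0 := by
    by_contra h
    push Not at h
    exact hy (HahnSeries.ext (funext h))
  obtain ⟨φ, hφ⟩ := exists_functional f hn
  refine ⟨φ, fun h => ?_⟩
  have := congrArg (fun z : LaurentSeries k => z.coeff n) h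
  simp [hφ] at this

theorem eq_zero_of_forall_lift_eq_zero {y : LaurentSeries K}
    (h : ∀ φ : Functional f, φ.lift y = 0) : y = 0 := by
  by_contra hy
  obtain ⟨φ, hφ⟩ := exists_functional_lift_ne_zero (f := f) hy
  exact hφ (h φ)

variable (f) in
theorem coeffMap_injective' : Function.Injective (coeffMap f) := fun x y h =>
  HahnSeries.ext <| funext fun n => f.injective <| by
    simpa using congrArg (fun z : LaurentSeries K => z.coeff n) h

/-- The functionals applied to a constant multiple of a rational series. -/
theorem Functional.lift_smul_coeffMap (φ : Functional f) (c : K) (a : LaurentSeries k) :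
    φ.lift (c • coeffMap f a) = φ.toAddHom c • a := by
  ext n
  rw [φ.lift_coeff, HahnSeries.coeff_smul, HahnSeries.coeff_smul, coeffMap_coeff, smul_eq_mul,
    mul_comm, φ.map_mul', smul_eq_mul, mul_comm]

theorem smul_eq_algebraMap_mul {R : Type*} [Field R] (c : R) (x : LaurentSeries R) :
    c • x = algebraMap R (LaurentSeries R) c * x := by
  rw [algebraMap_laurentSeries_eq_single, ← HahnSeries.C_apply, HahnSeries.C_mul_eq_smul]

theorem Functional.lift_algebraMap_mul (φ : Functional f) (c : K) (a : LaurentSeries k) :
    φ.lift (algebraMap K (LaurentSeries K) c * coeffMap f a) =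
      algebraMap k (LaurentSeries k) (φ.toAddHom c) * a := by
  rw [← smul_eq_algebraMap_mul, ← smul_eq_algebraMap_mul, φ.lift_smul_coeffMap]

theorem Functional.lift_mem_of_mem_span (φ : Functional f) {V : Submodule k (LaurentSeries k)}
    {y : LaurentSeries K}
    (hy : y ∈ Submodule.span K (coeffMap f '' (V : Set (LaurentSeries k)))) :
    φ.lift y ∈ V := by
  rw [Submodule.mem_span_set'] at hy
  obtain ⟨n, c, g, rfl⟩ := hy
  rw [map_sum]
  refine Submodule.sum_mem _ fun i _ => ?_
  obtain ⟨a, ha, h⟩ := (g i).2
  rw [← h, φ.lift_smul_coeffMap]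
  exact V.smul_mem _ ha

variable (f) in
/-- Descent for subspaces: `(K ⊗ V) ∩ k((q)) = V`. -/
theorem mem_of_coeffMap_mem_span {V : Submodule k (LaurentSeries k)} {x : LaurentSeries k}
    (hx : coeffMap f x ∈ Submodule.span K (coeffMap f '' (V : Set (LaurentSeries k)))) :
    x ∈ V := by
  obtain ⟨φ, hφ⟩ := exists_functional f (one_ne_zero (α := K))
  have h := φ.lift_mem_of_mem_span hx
  have h1 : φ.lift (coeffMap f x) = x := by
    have := φ.lift_smul_coeffMap (1 : K) x
    rwa [one_smul, hφ, one_smul] at this
  rwa [h1] at h

variable (f) in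
/-- Linearly independent `k`-series stay linearly independent over `K`. -/
theorem linearIndependent_coeffMap {ι : Type*} {v : ι → LaurentSeries k}
    (hv : LinearIndependent k v) : LinearIndependent K (coeffMap f ∘ v) := by
  rw [linearIndependent_iff']
  intro s g hg i hi
  by_contra hne
  obtain ⟨φ, hφ⟩ := exists_functional f hne
  have h := congrArg φ.lift hg
  rw [map_sum, map_zero] at h
  simp only [Function.comp_apply, φ.lift_smul_coeffMap] at h
  have := linearIndependent_iff'.mp hv s _ h i hi
  rw [hφ] at this
  exact one_ne_zero this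

end Fermat.Agent.MF.Coeff

end
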